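import Mathlib
import Fermat.Prelude.Def_ModularCurve_X0ModL
import Fermat.Agent.MUL.S28.Eval
import Fermat.Agent.MUL.Orig.S28.Residue
import Fermat.Agent.MUL.S28.IntOver
import Fermat.Agent.MUL.S28.DescentD1
import Fermat.Agent.MUL.Orig.S28.UnitArith

section MergeWrap_S28_Integrality -- from S28/Integrality.lean

/-!
# S28 (D2): `ℓ`-integrality of the canonical polynomial `χ`

If `χ ∈ ℚ[Y][X]` is monic of degree `n` with `deg_Y χ_i ≤ φ (n - i)`, `χ(j,u) = 0`,
constant term an `ℓ`-integral constant, and `j, u` are `ℓ`-integral with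
`ord (j mod ℓ) = -1`, `ord (u mod ℓ) = φ (n-1)`, then `χ` has coefficients in `Z_(ℓ)`.
-/

set_option autoImplicit false

namespace Fermat.Agent.S28

open Polynomial ModularCurve

noncomputable section

section Order

variable {k : Type*} [Field k]

/-- A relation `Σ_{0<i<n} Q_i(j) u^i = 0` with `deg Q_i ≤ φ (n - i)` and `ord u = φ (n-1)`
forces `Q = 0`. -/
theorem no_small_relation (j u : LaurentSeries k) (hj : ordV k j = ((-1 : ℤ) : WithTop ℤ))
    {n φ : ℕ} (hφ : 0 < φ)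
    (hu : ordV k u = (((φ * (n - 1) : ℕ) : ℤ) : WithTop ℤ))
    (Q : k[X][X]) (hQ0 : Q.coeff 0 = 0) (hQn : ∀ i, n ≤ i → Q.coeff i = 0)
    (hQc : ∀ i, i < n → (Q.coeff i).natDegree + φ * i ≤ φ * n)
    (hQu : Q.eval₂ (evJ j) u = 0) : Q = 0 := by
  classical
  by_contra hQ
  set i₀ := Q.natTrailingDegree with hi₀
  have hc₀ : Q.coeff i₀ ≠ 0 := (trailingCoeff_nonzero_iff_nonzero (p := Q)).mpr hQ
  have hi₀pos : 0 < i₀ := by
    rcases Nat.eq_zero_or_pos i₀ with h | h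
    · rw [h] at hc₀; exact absurd hQ0 hc₀
    · exact h
  have hi₀n : i₀ < n := by
    by_contra hge
    exact hc₀ (hQn i₀ (not_lt.mp hge))
  have hn1 : 1 ≤ n := by omega
  have hdeg : Q.natDegree < n := by
    by_contra hge
    have : Q.coeff Q.natDegree = 0 := hQn _ (not_lt.mp hge)
    exact (leadingCoeff_ne_zero.mpr hQ) this
  -- the value of a term
  have hterm : ∀ i, Q.coeff i ≠ 0 →
      ordV k (evJ j (Q.coeff i) * u ^ i) =
        ((-((Q.coeff i).natDegree : ℤ) + (i : ℤ) * ((φ * (n - 1) : ℕ) : ℤ) : ℤ) : WithTop ℤ) := by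
    intro i hi
    rw [AddValuation.map_mul, ordV_evJ_eq j hj hi, ordV_pow_of_eq hu]
    rfl
  have hsum : ∑ i ∈ Finset.range n, evJ j (Q.coeff i) * u ^ i = 0 := by
    rw [← hQu, eval₂_eq_sum_range' _ hdeg]
  have hmem : i₀ ∈ Finset.range n := Finset.mem_range.mpr hi₀n
  rw [← Finset.add_sum_erase _ _ hmem] at hsum
  have hlt : ordV k (evJ j (Q.coeff i₀) * u ^ i₀) <
      ordV k (∑ i ∈ (Finset.range n).erase i₀, evJ j (Q.coeff i) * u ^ i) := by
    refine AddValuation.map_lt_sum' _ ?_ fun i hi => ?_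
    · rw [hterm i₀ hc₀]; exact WithTop.coe_lt_top _
    · have hin : i < n := Finset.mem_range.mp (Finset.mem_of_mem_erase hi)
      have hne : i ≠ i₀ := Finset.ne_of_mem_erase hi
      by_cases hci : Q.coeff i = 0
      · rw [hci, map_zero, zero_mul, AddValuation.map_zero, hterm i₀ hc₀]
        exact WithTop.coe_lt_top _
      · have hgt : i₀ < i := by
          rcases lt_or_gt_of_ne hne with h | h
          · exact absurd (coeff_eq_zero_of_lt_natTrailingDegree h) hci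
          · exact h
        rw [hterm i₀ hc₀, hterm i hci]
        have hb : ((Q.coeff i).natDegree : ℤ) + φ * i ≤ φ * n := by exact_mod_cast hQc i hin
        have h3 : ((φ * (n - 1) : ℕ) : ℤ) = (φ : ℤ) * ((n : ℤ) - 1) := by
          rw [Nat.cast_mul, Nat.cast_sub hn1]; simp
        have hφ' : (1 : ℤ) ≤ φ := by exact_mod_cast hφ
        have hi0 : (1 : ℤ) ≤ i₀ := by exact_mod_cast hi₀pos
        have hgt' : (i₀ : ℤ) + 1 ≤ i := by exact_mod_cast hgt
        have hn' : (i : ℤ) + 1 ≤ n := by exact_mod_cast hin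
        have hd0 : (0 : ℤ) ≤ ((Q.coeff i₀).natDegree : ℤ) := Int.natCast_nonneg _
        rw [h3]
        have key : -((Q.coeff i₀).natDegree : ℤ) + (i₀ : ℤ) * ((φ : ℤ) * ((n : ℤ) - 1)) <
            -((Q.coeff i).natDegree : ℤ) + (i : ℤ) * ((φ : ℤ) * ((n : ℤ) - 1)) := by
          have e1 : (i : ℤ) * ((φ : ℤ) * ((n : ℤ) - 1)) - (i₀ : ℤ) * ((φ : ℤ) * ((n : ℤ) - 1)) =
              ((i : ℤ) - i₀) * ((φ : ℤ) * ((n : ℤ) - 1)) := by ring
          have e2 : (φ : ℤ) * ((n : ℤ) - 1) ≤ ((i : ℤ) - i₀) * ((φ : ℤ) * ((n : ℤ) - 1)) := by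
            have hnn : (0 : ℤ) ≤ (φ : ℤ) * ((n : ℤ) - 1) :=
              mul_nonneg (by linarith) (by linarith)
            nlinarith
          have e3 : (φ : ℤ) * i₀ ≥ 1 := by nlinarith
          have e4 : (φ : ℤ) * (i₀ + 1) ≤ φ * i := mul_le_mul_of_nonneg_left hgt' (by linarith)
          nlinarith
        exact_mod_cast key
  have hval := AddValuation.map_add_eq_of_lt_left (ordV k) hlt
  rw [hsum, AddValuation.map_zero, hterm i₀ hc₀] at hval
  exact WithTop.top_ne_coe hval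

end Order

section Main

variable (ℓ : ℕ) [Fact ℓ.Prime]

theorem natCast_ne_zero_rat_poly2 (d : ℕ) : ((ℓ : ℚ[X][X]) ^ d) ≠ 0 := by
  have hℓ : (ℓ : ℚ) ≠ 0 := by exact_mod_cast (Fact.out : ℓ.Prime).ne_zero
  have h1 : ((ℓ : ℕ) : ℚ[X][X]) = C (C (ℓ : ℚ)) := by simp
  rw [h1, ← C_pow, ← C_pow]
  intro h
  have h2 := C_eq_zero.mp (C_eq_zero.mp h)
  exact (pow_ne_zero d hℓ) h2

/-- **(D2)** `ℓ`-integrality of `χ`. -/
theorem chi_integral {n φ : ℕ} (hφ : 0 < φ)
    (jR uR : LaurentSeries ↥(GaloisRep.ratLocalizedAt ℓ))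
    (hj : ordV (ZMod ℓ) (coeffMap (resR ℓ) jR) = ((-1 : ℤ) : WithTop ℤ))
    (hu : ordV (ZMod ℓ) (coeffMap (resR ℓ) uR) = (((φ * (n - 1) : ℕ) : ℤ) : WithTop ℤ))
    (χ : ℚ[X][X]) (hχm : χ.Monic) (hχd : χ.natDegree = n)
    (hχc : ∀ i, i < n → (χ.coeff i).natDegree + φ * i ≤ φ * n)
    (c₀ : ↥(GaloisRep.ratLocalizedAt ℓ)) (hχ0 : χ.coeff 0 = C (c₀ : ℚ))
    (hχu : pev2 (coeffMap (GaloisRep.ratLocalizedAt ℓ).subtype jR)
      (coeffMap (GaloisRep.ratLocalizedAt ℓ).subtype uR) χ = 0) :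
    ∃ χR : (↥(GaloisRep.ratLocalizedAt ℓ))[X][X],
      χR.map (mapRingHom (GaloisRep.ratLocalizedAt ℓ).subtype) = χ := by
  classical
  set ι := (GaloisRep.ratLocalizedAt ℓ).subtype with hι
  have hιinj : Function.Injective ι := Subtype.val_injective
  have hι1 : Function.Injective (mapRingHom ι) := Polynomial.map_injective ι hιinj
  have hι2 : Function.Injective (mapRingHom (mapRingHom ι)) :=
    Polynomial.map_injective _ hι1
  obtain ⟨a, b, χ₀, hres, heq⟩ := (gaussTriple_poly2 ℓ).nrm χ hχm.ne_zero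
  rcases le_or_gt a b with hab | hab
  · refine ⟨(ℓ : (↥(GaloisRep.ratLocalizedAt ℓ))[X][X]) ^ (b - a) * χ₀, ?_⟩
    have h1 : (ℓ : ℚ[X][X]) ^ a * χ =
        (ℓ : ℚ[X][X]) ^ a * ((ℓ : ℚ[X][X]) ^ (b - a) * (mapRingHom (mapRingHom ι)) χ₀) := by
      rw [← mul_assoc, ← pow_add, Nat.add_sub_cancel' hab]; exact heq
    have h2 := mul_left_cancel₀ (natCast_ne_zero_rat_poly2 ℓ a) h1
    rw [h2, Polynomial.map_mul, Polynomial.map_pow, Polynomial.map_natCast]
    rfl
  · exfalso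
    obtain ⟨d, hd⟩ : ∃ d, a = b + (d + 1) := ⟨a - b - 1, by omega⟩
    have h1 : (ℓ : ℚ[X][X]) ^ b * ((ℓ : ℚ[X][X]) ^ (d + 1) * χ) =
        (ℓ : ℚ[X][X]) ^ b * (mapRingHom (mapRingHom ι)) χ₀ := by
      rw [← mul_assoc, ← pow_add, ← hd]; exact heq
    have h2 : (ℓ : ℚ[X][X]) ^ (d + 1) * χ = (mapRingHom (mapRingHom ι)) χ₀ :=
      mul_left_cancel₀ (natCast_ne_zero_rat_poly2 ℓ b) h1
    have hℓC : ((ℓ : ℕ) : ℚ[X][X]) = C (C (ℓ : ℚ)) := by simp
    -- coefficients of χ₀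
    have hcoeff : ∀ i, (χ₀.coeff i).map ι = C ((ℓ : ℚ) ^ (d + 1)) * χ.coeff i := by
      intro i
      have := congrArg (fun P => Polynomial.coeff P i) h2
      simp only [coe_mapRingHom, coeff_map] at this
      rw [← this, hℓC, ← C_pow, ← C_pow, coeff_C_mul]
    have hℓ0 : ((ℓ : ℚ) ^ (d + 1)) ≠ 0 :=
      pow_ne_zero _ (by exact_mod_cast (Fact.out : ℓ.Prime).ne_zero)
    have hresℓ : resR ℓ ((ℓ : ↥(GaloisRep.ratLocalizedAt ℓ)) ^ (d + 1)) = 0 := by
      rw [map_pow, resR_ell, zero_pow (Nat.succ_ne_zero d)]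
    set Q : (ZMod ℓ)[X][X] := (mapRingHom (mapRingHom (resR ℓ))) χ₀ with hQdef
    have hQcoeff : ∀ i, Q.coeff i = (χ₀.coeff i).map (resR ℓ) := by
      intro i; simp [hQdef]
    -- constant term
    have hQ0 : Q.coeff 0 = 0 := by
      rw [hQcoeff]
      have h0 : χ₀.coeff 0 = C ((ℓ : ↥(GaloisRep.ratLocalizedAt ℓ)) ^ (d + 1) * c₀) := by
        apply hι1
        show (χ₀.coeff 0).map ι = (C ((ℓ : ↥(GaloisRep.ratLocalizedAt ℓ)) ^ (d + 1) * c₀)).map ι
        rw [hcoeff 0, hχ0, Polynomial.map_C, ← C_mul]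
        congr 1
      rw [h0, Polynomial.map_C, map_mul, hresℓ, zero_mul, C_0]
    have hQn : ∀ i, n ≤ i → Q.coeff i = 0 := by
      intro i hi
      rw [hQcoeff]
      rcases Nat.eq_or_lt_of_le hi with h | h
      · have hn : χ₀.coeff i = C ((ℓ : ↥(GaloisRep.ratLocalizedAt ℓ)) ^ (d + 1)) := by
          apply hι1
          show (χ₀.coeff i).map ι = (C ((ℓ : ↥(GaloisRep.ratLocalizedAt ℓ)) ^ (d + 1))).map ι
          rw [hcoeff i, ← h, ← hχd, hχm.coeff_natDegree, mul_one, Polynomial.map_C]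
          congr 1
        rw [hn, Polynomial.map_C, hresℓ, C_0]
      · have hz : χ₀.coeff i = 0 := by
          apply hι1
          show (χ₀.coeff i).map ι = (0 : (↥(GaloisRep.ratLocalizedAt ℓ))[X]).map ι
          rw [hcoeff i, coeff_eq_zero_of_natDegree_lt (by rw [hχd]; exact h), mul_zero,
            Polynomial.map_zero]
        rw [hz, Polynomial.map_zero]
    have hQc : ∀ i, i < n → (Q.coeff i).natDegree + φ * i ≤ φ * n := by
      intro i hi
      refine le_trans (Nat.add_le_add_right ?_ _) (hχc i hi)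
      rw [hQcoeff]
      calc ((χ₀.coeff i).map (resR ℓ)).natDegree ≤ (χ₀.coeff i).natDegree := natDegree_map_le
        _ = ((χ₀.coeff i).map ι).natDegree := (natDegree_map_eq_of_injective hιinj _).symm
        _ = (χ.coeff i).natDegree := by rw [hcoeff i, natDegree_C_mul hℓ0]
    have hzeroR : pev2 jR uR χ₀ = 0 := by
      apply coeffMap_injective hιinj
      rw [coeffMap_pev2, map_zero]
      have : Polynomial.map (mapRingHom ι) χ₀ = (mapRingHom (mapRingHom ι)) χ₀ := rfl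
      rw [this, ← h2, map_mul, hχu, mul_zero]
    have hQu : Q.eval₂ (evJ (coeffMap (resR ℓ) jR)) (coeffMap (resR ℓ) uR) = 0 := by
      rw [← pev2_eq_eval₂_evJ]
      have : Q = Polynomial.map (mapRingHom (resR ℓ)) χ₀ := rfl
      rw [this, ← coeffMap_pev2, hzeroR, map_zero]
    exact hres (no_small_relation _ _ hj hφ hu Q hQ0 hQn hQc hQu)

/-- **(D2)**, packaged: the integral model of `χ` with all its properties. -/
theorem exists_chi_integral {n φ : ℕ} (hφ : 0 < φ)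
    (jR uR : LaurentSeries ↥(GaloisRep.ratLocalizedAt ℓ))
    (hj : ordV (ZMod ℓ) (coeffMap (resR ℓ) jR) = ((-1 : ℤ) : WithTop ℤ))
    (hu : ordV (ZMod ℓ) (coeffMap (resR ℓ) uR) = (((φ * (n - 1) : ℕ) : ℤ) : WithTop ℤ))
    (χ : ℚ[X][X]) (hχm : χ.Monic) (hχd : χ.natDegree = n)
    (hχc : ∀ i, i < n → (χ.coeff i).natDegree + φ * i ≤ φ * n)
    (c₀ : ↥(GaloisRep.ratLocalizedAt ℓ)) (hχ0 : χ.coeff 0 = C (c₀ : ℚ))
    (hχu : pev2 (coeffMap (GaloisRep.ratLocalizedAt ℓ).subtype jR)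
      (coeffMap (GaloisRep.ratLocalizedAt ℓ).subtype uR) χ = 0) :
    ∃ χR : (↥(GaloisRep.ratLocalizedAt ℓ))[X][X],
      χR.map (mapRingHom (GaloisRep.ratLocalizedAt ℓ).subtype) = χ ∧
      χR.Monic ∧ χR.natDegree = n ∧
      (∀ i, i < n → (χR.coeff i).natDegree + φ * i ≤ φ * n) ∧
      pev2 jR uR χR = 0 := by
  obtain ⟨χR, hχR⟩ := chi_integral ℓ hφ jR uR hj hu χ hχm hχd hχc c₀ hχ0 hχu
  have hιinj : Function.Injective (GaloisRep.ratLocalizedAt ℓ).subtype := Subtype.val_injective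
  have hι1 : Function.Injective (mapRingHom (GaloisRep.ratLocalizedAt ℓ).subtype) :=
    Polynomial.map_injective _ hιinj
  refine ⟨χR, hχR, ?_, ?_, ?_, ?_⟩
  · exact monic_of_injective hι1 (by rw [hχR]; exact hχm)
  · rw [← hχd, ← hχR]; exact (natDegree_map_eq_of_injective hι1 _).symm
  · intro i hi
    refine le_trans (Nat.add_le_add_right (le_of_eq ?_) _) (hχc i hi)
    rw [← hχR, coeff_map]
    exact (natDegree_map_eq_of_injective hιinj _).symm
  · apply coeffMap_injective hιinj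
    rw [coeffMap_pev2, hχR, hχu, map_zero]

end Main

end

end Fermat.Agent.S28
end MergeWrap_S28_Integrality

section MergeWrap_S28_DescentMain -- from S28/DescentMain.lean

set_option autoImplicit false

namespace Fermat.Agent.S28

open Polynomial ModularCurve

noncomputable section

/-! ### Monic unit series over an arbitrary ring -/

/-- `q^a · E` over the ring `A`, for an integral power series `E`. -/
def muSeries (A : Type*) [CommRing A] (a : ℤ) (E : PowerSeries ℤ) : LaurentSeries A :=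
  HahnSeries.single a (1 : A) * HahnSeries.ofPowerSeries ℤ A (E.map (Int.castRingHom A))

lemma coeffMap_muSeries {A B : Type*} [CommRing A] [CommRing B] (f : A →+* B) (a : ℤ)
    (E : PowerSeries ℤ) : coeffMap f (muSeries A a E) = muSeries B a E := by
  rw [muSeries, map_mul, coeffMap_single, map_one, coeffMap_ofPowerSeries,
    ← RingHom.comp_apply (PowerSeries.map f) (PowerSeries.map (Int.castRingHom A)),
    ← PowerSeries.map_comp, RingHom.ext_int (f.comp (Int.castRingHom A)) (Int.castRingHom B)]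
  rfl

lemma coeff_muSeries {A : Type*} [CommRing A] (a : ℤ) (E : PowerSeries ℤ) (k : ℤ) :
    (muSeries A a E).coeff k =
      (HahnSeries.ofPowerSeries ℤ A (E.map (Int.castRingHom A))).coeff (k - a) := by
  rw [muSeries, HahnSeries.coeff_single_mul, one_mul]

lemma orderTop_muSeries {A : Type*} [CommRing A] [Nontrivial A] (a : ℤ) {E : PowerSeries ℤ}
    (hE : PowerSeries.constantCoeff E = 1) : (muSeries A a E).orderTop = a := by
  refine HahnSeries.orderTop_eq_of_le ?_ fun g hg => ?_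
  · rw [HahnSeries.mem_support, coeff_muSeries, sub_self,
      show (0 : ℤ) = ((0 : ℕ) : ℤ) from rfl, HahnSeries.ofPowerSeries_apply_coeff,
      PowerSeries.coeff_map, PowerSeries.coeff_zero_eq_constantCoeff, hE]
    simp
  · by_contra hlt
    rw [not_le] at hlt
    rw [HahnSeries.mem_support] at hg
    exact hg (by rw [coeff_muSeries, ofPowerSeries_coeff_of_neg _ (by omega)])

lemma ordV_muSeries {k : Type*} [Field k] (a : ℤ) {E : PowerSeries ℤ}
    (hE : PowerSeries.constantCoeff E = 1) : ordV k (muSeries k a E) = (a : WithTop ℤ) := by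
  rw [ordV, HahnSeries.addVal_apply, orderTop_muSeries a hE]

lemma muSeries_ne_zero {A : Type*} [CommRing A] [Nontrivial A] (a : ℤ) {E : PowerSeries ℤ}
    (hE : PowerSeries.constantCoeff E = 1) : muSeries A a E ≠ 0 := by
  intro h
  have := orderTop_muSeries (A := A) a hE
  rw [h, HahnSeries.orderTop_zero] at this
  exact WithTop.top_ne_coe this

lemma jq_eq_muSeries : jq = muSeries ℚ (-1) jNum := rfl

lemma ordV_jq : ordV ℚ jq = ((-1 : ℤ) : WithTop ℤ) := by
  rw [jq_eq_muSeries]; exact ordV_muSeries (-1) constantCoeff_jNum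

/-! ### Membership in `ℤ_(ℓ)` -/

lemma mem_ratLocalizedAt_of_padicValRat_eq_zero {ℓ : ℕ} (hℓ : ℓ.Prime) {x : ℚ}
    (h : padicValRat ℓ x = 0) : x ∈ GaloisRep.ratLocalizedAt ℓ := by
  rw [mem_ratLocalizedAt_iff]
  have : Fact ℓ.Prime := ⟨hℓ⟩
  by_contra hc
  have hdvd : ℓ ∣ x.den := by
    by_contra hnd
    exact hc ((Nat.Prime.coprime_iff_not_dvd hℓ).mpr hnd).symm
  have hnum : ¬ (ℓ : ℤ) ∣ x.num := by
    intro hn
    have h1 : ℓ ∣ x.num.natAbs := Int.natCast_dvd.mp hn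
    have h2 := Nat.dvd_gcd h1 hdvd
    rw [x.reduced.gcd_eq_one] at h2
    exact hℓ.one_lt.ne' (Nat.dvd_one.mp h2)
  have h3 : padicValRat ℓ x = (padicValInt ℓ x.num : ℤ) - (padicValNat ℓ x.den : ℤ) := rfl
  rw [h3, padicValInt.eq_zero_of_not_dvd hnum] at h
  have h4 : 1 ≤ padicValNat ℓ x.den :=
    one_le_padicValNat_of_dvd x.den_nz hdvd
  omega

/-! ### The main descent statement -/

theorem descent_main (N ℓ : ℕ) [NeZero N] [Fact ℓ.Prime] (hℓN : ¬ ℓ ∣ N) (h : ThmAStatement N) :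
    ∃ (n φ : ℕ) (u : LaurentSeries ℚ) (χQ : Polynomial (Polynomial ℚ)),
      0 < φ ∧ IsMonicUnitSeries u (((φ * (n - 1) : ℕ) : ℤ)) ∧
      χQ.Monic ∧ χQ.natDegree = n ∧
      (∀ i, i < n → (χQ.coeff i).natDegree + φ * i ≤ φ * n) ∧
      (∀ i k, (χQ.coeff i).coeff k ∈ GaloisRep.ratLocalizedAt ℓ) ∧
      χQ.eval₂ (evJ ModularCurve.jq) u = 0 ∧
      ∀ (d : ℕ) (_ : NeZero d), d ∣ N → ∃ A : Polynomial (Polynomial ℚ),
        ModularCurve.qExpand ℚ d ModularCurve.jq *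
            (Polynomial.derivative χQ).eval₂ (evJ ModularCurve.jq) u
          = A.eval₂ (evJ ModularCurve.jq) u := by
  obtain ⟨n, φ, u, χ, c₀, a, b, hφ, hu, hχm, hχd, hχc, hχu, hχ0, ha, hb, hab, hnorm, hA⟩ := h
  have hℓ : ℓ.Prime := Fact.out
  obtain ⟨E, hE1, huE⟩ := hu
  have huE' : u = muSeries ℚ (((φ * (n - 1) : ℕ) : ℤ)) E := huE
  have hu0 : u ≠ 0 := by rw [huE']; exact muSeries_ne_zero _ hE1
  have huord : ordV ℚ u = ((((φ * (n - 1) : ℕ) : ℤ)) : WithTop ℤ) := by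
    rw [huE']; exact ordV_muSeries _ hE1
  -- D1
  have hχu' : pev2 (coeffEmb ℂ jq) (coeffEmb ℂ u) χ = 0 := by
    rw [pev2_eq_eval₂_evJ]; exact hχu
  obtain ⟨χQ, hmap, hQm, hQd, hQc, hQu⟩ :=
    chi_rational jq u ordV_jq hu0 hφ (le_of_eq huord.symm) χ hχm hχd hχc hχu'
  -- the constant term
  have hcoeff : ∀ i k, algebraMap ℚ ℂ ((χQ.coeff i).coeff k) = (χ.coeff i).coeff k := by
    intro i k
    rw [← hmap, coeff_map, coe_mapRingHom, coeff_map]
  set q₀ : ℚ := (χQ.coeff 0).coeff 0 with hq₀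
  have hq0 : χQ.coeff 0 = C q₀ := by
    ext k
    rcases Nat.eq_zero_or_pos k with rfl | hk
    · rw [coeff_C_zero]
    · rw [coeff_C, if_neg hk.ne']
      apply (algebraMap ℚ ℂ).injective
      rw [hcoeff, hχ0, coeff_C, if_neg hk.ne', map_zero]
  have hc : ((q₀ : ℚ) : ℂ) = c₀ := by
    have := hcoeff 0 0
    rw [hχ0, coeff_C_zero] at this
    exact this
  have hnu : IsNUnit N ((|q₀| : ℚ) : ℝ) := by
    refine ⟨a, b, ha, hb, fun p hp hpa => hab p hp (hpa.mul_right b),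
      fun p hp hpb => hab p hp (hpb.mul_left a), ?_⟩
    have hb0 : (b : ℝ) ≠ 0 := by positivity
    rw [eq_div_iff hb0, ← hnorm, ← hc]
    congr 1
    rw [Rat.cast_abs]
    exact (Complex.norm_ratCast q₀).symm
  have hq₀mem : q₀ ∈ GaloisRep.ratLocalizedAt ℓ :=
    mem_ratLocalizedAt_of_padicValRat_eq_zero hℓ (hnu.padicValRat_eq_zero hℓ hℓN)
  -- D2
  set jR : LaurentSeries ↥(GaloisRep.ratLocalizedAt ℓ) := muSeries _ (-1) jNum with hjR
  set uR : LaurentSeries ↥(GaloisRep.ratLocalizedAt ℓ) :=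
    muSeries _ (((φ * (n - 1) : ℕ) : ℤ)) E with huR
  have hjRQ : coeffMap (GaloisRep.ratLocalizedAt ℓ).subtype jR = jq := by
    rw [hjR, coeffMap_muSeries, jq_eq_muSeries]
  have huRQ : coeffMap (GaloisRep.ratLocalizedAt ℓ).subtype uR = u := by
    rw [huR, coeffMap_muSeries, huE']
  obtain ⟨χR, hRmap, -⟩ := exists_chi_integral ℓ hφ jR uR
    (by rw [hjR, coeffMap_muSeries]; exact ordV_muSeries (-1) constantCoeff_jNum)
    (by rw [huR, coeffMap_muSeries]; exact ordV_muSeries _ hE1)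
    χQ hQm hQd hQc ⟨q₀, hq₀mem⟩ hq0 (by rw [hjRQ, huRQ]; exact hQu)
  refine ⟨n, φ, u, χQ, hφ, ⟨E, hE1, huE⟩, hQm, hQd, hQc, ?_, ?_, ?_⟩
  · intro i k
    rw [← hRmap, coeff_map, coe_mapRingHom, coeff_map]
    exact Subtype.property _
  · rw [← pev2_eq_eval₂_evJ]; exact hQu
  · intro d hd hdN
    obtain ⟨A, hA'⟩ := hA d hd hdN
    obtain ⟨r, hr⟩ := exists_retraction ℂ
    refine ⟨polyRet2 r A, ?_⟩
    have key := retract_relation_mul (L := ℂ) jq u (qExpand ℚ d jq) r (derivative χ) A (by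
      rw [pev2_eq_eval₂_evJ, pev2_eq_eval₂_evJ]; exact hA')
    rw [← hmap, derivative_map, polyRet2_map r hr] at key
    rw [← pev2_eq_eval₂_evJ, ← pev2_eq_eval₂_evJ]
    exact key

end

end Fermat.Agent.S28
end MergeWrap_S28_DescentMain
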