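import Fermat.Agent.MUL.S28.RedProps
import Fermat.Agent.MUL.S28.IntOver
import Fermat.Agent.MUL.S28.DescentMain

section MergeWrap_S28_DescentD3 -- from S28/DescentD3.lean

set_option autoImplicit false

namespace Fermat.Agent.S28

open Polynomial ModularCurve

noncomputable section

/-! ### Generalities on monic relations -/

/-- In a domain, a nonzero root of a monic polynomial (through a ring hom) is a root of a monic
polynomial with non-vanishing constant coefficient. -/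
theorem d3_exists_monic_coeff_zero_ne {R S : Type*} [CommRing R] [CommRing S] [IsDomain S]
    (φ : R →+* S) {w : S} (hw : w ≠ 0) (p : R[X]) (hp : p.Monic) (hpw : p.eval₂ φ w = 0) :
    ∃ q : R[X], q.Monic ∧ q.eval₂ φ w = 0 ∧ q.coeff 0 ≠ 0 := by
  have hS : Nontrivial S := inferInstance
  have hR : Nontrivial R := φ.domain_nontrivial
  obtain ⟨q, hq, hnd⟩ := exists_eq_pow_rootMultiplicity_mul_and_not_dvd p hp.ne_zero (0 : R)
  rw [map_zero, sub_zero] at hq hnd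
  refine ⟨q, ?_, ?_, ?_⟩
  · have h1 : (X ^ p.rootMultiplicity 0 * q).Monic := hq ▸ hp
    exact (monic_X_pow _).of_mul_monic_left h1
  · rw [hq, eval₂_mul, eval₂_pow, eval₂_X] at hpw
    rcases mul_eq_zero.mp hpw with h | h
    · exact absurd h (pow_ne_zero _ hw)
    · exact h
  · intro h0
    exact hnd (X_dvd_iff.mpr h0)

/-- The inverse of a nonzero root of a monic polynomial: `w⁻¹ · φ(-c₀) = (q.divX)(w)`. -/
theorem d3_inv_mul_eq {R S : Type*} [CommRing R] [Field S]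
    (φ : R →+* S) {w : S} (hw : w ≠ 0) (q : R[X]) (hqw : q.eval₂ φ w = 0) :
    w⁻¹ * φ (-q.coeff 0) = (q.divX).eval₂ φ w := by
  have h1 : q.divX * X + C (q.coeff 0) = q := divX_mul_X_add q
  have h2 : (q.divX).eval₂ φ w * w + φ (q.coeff 0) = 0 := by
    rw [← hqw]
    conv_rhs => rw [← h1]
    rw [eval₂_add, eval₂_mul, eval₂_X, eval₂_C]
  have h3 : φ (-q.coeff 0) = (q.divX).eval₂ φ w * w := by
    rw [map_neg]; linear_combination -h2
  rw [h3, mul_comm, mul_assoc, mul_inv_cancel₀ hw, mul_one]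

/-! ### `InT` is closed under the field operations -/

variable {jQ uQ : LaurentSeries ℚ}

theorem d3_inT_of_pev2 (P : ℚ[X][X]) : InT jQ uQ (pev2 jQ uQ P) :=
  ⟨1, one_ne_zero, P, by rw [map_one, mul_one]⟩

theorem d3_inT_zero : InT jQ uQ 0 := by
  simpa using d3_inT_of_pev2 (jQ := jQ) (uQ := uQ) 0

theorem d3_inT_j : InT jQ uQ jQ := by
  simpa using d3_inT_of_pev2 (jQ := jQ) (uQ := uQ) (C X)

theorem d3_inT_u : InT jQ uQ uQ := by
  simpa using d3_inT_of_pev2 (jQ := jQ) (uQ := uQ) X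

theorem d3_inT_algebraMap (c : ℚ) : InT jQ uQ (algebraMap ℚ (LaurentSeries ℚ) c) := by
  have h := d3_inT_of_pev2 (jQ := jQ) (uQ := uQ) (C (C c))
  rwa [pev2_C, pev1_C, hahnC_eq_algebraMap] at h

theorem d3_inT_add {x y : LaurentSeries ℚ} (hx : InT jQ uQ x) (hy : InT jQ uQ y) :
    InT jQ uQ (x + y) := by
  obtain ⟨g₁, hg₁, P₁, h₁⟩ := hx
  obtain ⟨g₂, hg₂, P₂, h₂⟩ := hy
  refine ⟨g₁ * g₂, mul_ne_zero hg₁ hg₂, P₁ * C g₂ + P₂ * C g₁, ?_⟩
  rw [map_mul, map_add, map_mul, map_mul, pev2_C, pev2_C, ← h₁, ← h₂]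
  ring

theorem d3_inT_mul {x y : LaurentSeries ℚ} (hx : InT jQ uQ x) (hy : InT jQ uQ y) :
    InT jQ uQ (x * y) := by
  obtain ⟨g₁, hg₁, P₁, h₁⟩ := hx
  obtain ⟨g₂, hg₂, P₂, h₂⟩ := hy
  refine ⟨g₁ * g₂, mul_ne_zero hg₁ hg₂, P₁ * P₂, ?_⟩
  rw [map_mul, map_mul, ← h₁, ← h₂]
  ring

/-- Every value `P(j,u)` is integral over `ℚ[j]` (through `pev1 j`). -/
theorem d3_isIntegralElem_pev2 (χQ : ℚ[X][X]) (hχm : χQ.Monic) (hχu : pev2 jQ uQ χQ = 0)
    (P : ℚ[X][X]) : (pev1 jQ).IsIntegralElem (pev2 jQ uQ P) := by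
  have hu : (pev1 jQ).IsIntegralElem uQ := ⟨χQ, hχm, by rwa [← pev2_apply]⟩
  induction P using Polynomial.induction_on' with
  | add p q hp hq =>
    rw [map_add]; exact RingHom.IsIntegralElem.add _ hp hq
  | monomial n a =>
    have h1 : pev2 jQ uQ (monomial n a) = pev1 jQ a * uQ ^ n := by
      rw [pev2_apply, eval₂_monomial]
    rw [h1]
    refine RingHom.IsIntegralElem.mul _ (RingHom.isIntegralElem_map _) ?_
    clear h1
    induction n with
    | zero => rw [pow_zero]; exact RingHom.isIntegralElem_one _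
    | succ n ih => rw [pow_succ]; exact RingHom.IsIntegralElem.mul _ ih hu

theorem d3_inT_inv (hinj : Function.Injective (pev1 jQ))
    (χQ : ℚ[X][X]) (hχm : χQ.Monic) (hχu : pev2 jQ uQ χQ = 0)
    {x : LaurentSeries ℚ} (hx : InT jQ uQ x) : InT jQ uQ x⁻¹ := by
  rcases eq_or_ne x 0 with rfl | hx0
  · rw [inv_zero]; exact d3_inT_zero
  obtain ⟨g, hg, P, hP⟩ := hx
  have hgj : pev1 jQ g ≠ 0 := fun h => hg (hinj (by rw [h, map_zero]))
  set w := pev2 jQ uQ P with hw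
  have hw0 : w ≠ 0 := by rw [← hP]; exact mul_ne_zero hx0 hgj
  obtain ⟨p, hpm, hpw⟩ := d3_isIntegralElem_pev2 χQ hχm hχu P
  obtain ⟨q, hqm, hqw, hq0⟩ := d3_exists_monic_coeff_zero_ne (pev1 jQ) hw0 p hpm hpw
  have hinv := d3_inv_mul_eq (pev1 jQ) hw0 q hqw
  -- `(q.divX)(w)` is a value of `pev2`
  have hcomp : (q.divX).eval₂ (pev1 jQ) w =
      pev2 jQ uQ ((q.divX).eval₂ (C : ℚ[X] →+* ℚ[X][X]) P) := by
    rw [hom_eval₂]
    congr 1
    exact RingHom.ext fun a => (pev2_C jQ uQ a).symm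
  refine ⟨-q.coeff 0, neg_ne_zero.mpr hq0, C g * (q.divX).eval₂ (C : ℚ[X] →+* ℚ[X][X]) P, ?_⟩
  rw [map_mul, pev2_C, ← hcomp, ← hinv]
  have hx' : x⁻¹ = pev1 jQ g * w⁻¹ := by
    rw [← hP, mul_inv, mul_comm x⁻¹, ← mul_assoc, mul_inv_cancel₀ hgj, one_mul]
  rw [hx']
  ring

/-- **(T)** every element of `ℚ(j, u)` has a representation `x · g(j) = P(j, u)`. -/
theorem inT_of_mem_adjoin (jQ uQ : LaurentSeries ℚ) (hinj : Function.Injective (pev1 jQ))
    (χQ : ℚ[X][X]) (hχm : χQ.Monic) (hχu : pev2 jQ uQ χQ = 0)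
    {x : LaurentSeries ℚ}
    (hx : x ∈ IntermediateField.adjoin ℚ ({jQ, uQ} : Set (LaurentSeries ℚ))) :
    InT jQ uQ x := by
  induction hx using IntermediateField.adjoin_induction with
  | mem x hx =>
    rcases hx with rfl | hx
    · exact d3_inT_j
    · rw [Set.mem_singleton_iff] at hx; rw [hx]; exact d3_inT_u
  | algebraMap c => exact d3_inT_algebraMap c
  | add x y _ _ hx hy => exact d3_inT_add hx hy
  | inv x _ hx => exact d3_inT_inv hinj χQ hχm hχu hx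
  | mul x y _ _ hx hy => exact d3_inT_mul hx hy

/-- Conversely, elements with a representation lie in `ℚ(j, u)`. -/
theorem d3_pev1_mem_adjoin (jQ uQ : LaurentSeries ℚ) (g : ℚ[X]) :
    pev1 jQ g ∈ IntermediateField.adjoin ℚ ({jQ, uQ} : Set (LaurentSeries ℚ)) := by
  induction g using Polynomial.induction_on' with
  | add p q hp hq => rw [map_add]; exact add_mem hp hq
  | monomial n a =>
    have h1 : pev1 jQ (monomial n a) = algebraMap ℚ (LaurentSeries ℚ) a * jQ ^ n := by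
      rw [pev1_apply, eval₂_monomial, hahnC_eq_algebraMap]
    rw [h1]
    exact mul_mem (IntermediateField.algebraMap_mem _ _)
      (pow_mem (IntermediateField.subset_adjoin ℚ _ (Set.mem_insert _ _)) n)

theorem d3_pev2_mem_adjoin (jQ uQ : LaurentSeries ℚ) (P : ℚ[X][X]) :
    pev2 jQ uQ P ∈ IntermediateField.adjoin ℚ ({jQ, uQ} : Set (LaurentSeries ℚ)) := by
  induction P using Polynomial.induction_on' with
  | add p q hp hq => rw [map_add]; exact add_mem hp hq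
  | monomial n a =>
    have h1 : pev2 jQ uQ (monomial n a) = pev1 jQ a * uQ ^ n := by
      rw [pev2_apply, eval₂_monomial]
    rw [h1]
    exact mul_mem (d3_pev1_mem_adjoin jQ uQ a)
      (pow_mem (IntermediateField.subset_adjoin ℚ _
        (Set.mem_insert_of_mem _ (Set.mem_singleton _))) n)

theorem d3_mem_adjoin_of_mul_eq (jQ uQ : LaurentSeries ℚ) {x : LaurentSeries ℚ}
    (D A : ℚ[X][X]) (hD : pev2 jQ uQ D ≠ 0) (h : x * pev2 jQ uQ D = pev2 jQ uQ A) :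
    x ∈ IntermediateField.adjoin ℚ ({jQ, uQ} : Set (LaurentSeries ℚ)) := by
  have hx : x = pev2 jQ uQ A * (pev2 jQ uQ D)⁻¹ := by
    rw [← h, mul_assoc, mul_inv_cancel₀ hD, mul_one]
  rw [hx]
  exact mul_mem (d3_pev2_mem_adjoin jQ uQ A) (inv_mem (d3_pev2_mem_adjoin jQ uQ D))

/-! ### `(J)`: `ℚ(j_d : d ∣ N) ⊆ ℚ(j, u)` -/

/-- The derivative of the characteristic polynomial does not vanish at `(j, u)`. -/
theorem d3_derivative_eval_ne_zero (j u : LaurentSeries ℚ)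
    (hj : ordV ℚ j = ((-1 : ℤ) : WithTop ℤ)) (hu : u ≠ 0)
    {n φ : ℕ} (hφ : 0 < φ) (χQ : ℚ[X][X]) (hχm : χQ.Monic) (hχd : χQ.natDegree = n)
    (hχc : ∀ i, i < n → (χQ.coeff i).natDegree + φ * i ≤ φ * n)
    (hχu : χQ.eval₂ (evJ j) u = 0)
    (hord : (((φ * (n - 1) : ℕ) : ℤ) : WithTop ℤ) ≤ ordV ℚ u) :
    (derivative χQ).eval₂ (evJ j) u ≠ 0 := by
  intro h0
  have hn : n ≠ 0 := by
    intro hn0
    rw [hn0] at hχd
    have h1 : χQ = 1 := hχm.natDegree_eq_zero.mp hχd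
    rw [h1, eval₂_one] at hχu
    exact one_ne_zero hχu
  have hdeg : (derivative χQ).natDegree < n := by
    rw [← hχd]; exact natDegree_derivative_lt (by rw [hχd]; exact hn)
  have hzero : derivative χQ = 0 :=
    order_lemma j u hj hu hφ χQ hχm hχd hχc hχu hord (derivative χQ) hdeg h0
  have h2 : χQ.natDegree = 0 := Polynomial.derivative_eq_zero.mp hzero
  exact hn (hχd ▸ h2)

/-- **(J)** every `j_d = j(q^d)`, `d ∣ N`, lies in `ℚ(j, u)`; hence the full modular function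
field is contained in `ℚ(j, u)`. -/
theorem modularFunctionFieldFull_le_adjoin (N : ℕ) [NeZero N] {n φ : ℕ} (hφ : 0 < φ)
    (u : LaurentSeries ℚ) (hu : u ≠ 0)
    (hord : (((φ * (n - 1) : ℕ) : ℤ) : WithTop ℤ) ≤ ordV ℚ u)
    (χQ : ℚ[X][X]) (hχm : χQ.Monic) (hχd : χQ.natDegree = n)
    (hχc : ∀ i, i < n → (χQ.coeff i).natDegree + φ * i ≤ φ * n)
    (hχu : χQ.eval₂ (evJ jq) u = 0)
    (hA : ∀ (d : ℕ) (_ : NeZero d), d ∣ N → ∃ A : ℚ[X][X],
      qExpand ℚ d jq * (derivative χQ).eval₂ (evJ jq) u = A.eval₂ (evJ jq) u) :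
    modularFunctionFieldFull N ≤
      IntermediateField.adjoin ℚ ({jq, u} : Set (LaurentSeries ℚ)) := by
  have hD := d3_derivative_eval_ne_zero jq u ordV_jq hu hφ χQ hχm hχd hχc hχu hord
  rw [modularFunctionFieldFull, IntermediateField.adjoin_le_iff]
  rintro x ⟨d, hne, hdvd, rfl⟩
  obtain ⟨A, hAeq⟩ := hA d hne hdvd
  refine d3_mem_adjoin_of_mul_eq jq u (derivative χQ) A ?_ ?_
  · rwa [pev2_eq_eval₂_evJ]
  · rwa [pev2_eq_eval₂_evJ, pev2_eq_eval₂_evJ]

/-- Variant of **(J)** with the hypothesis `IsMonicUnitSeries`, as delivered by `descent_main`. -/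
theorem modularFunctionFieldFull_le_adjoin' (N : ℕ) [NeZero N] {n φ : ℕ} (hφ : 0 < φ)
    (u : LaurentSeries ℚ) (hu : IsMonicUnitSeries u (((φ * (n - 1) : ℕ) : ℤ)))
    (χQ : ℚ[X][X]) (hχm : χQ.Monic) (hχd : χQ.natDegree = n)
    (hχc : ∀ i, i < n → (χQ.coeff i).natDegree + φ * i ≤ φ * n)
    (hχu : χQ.eval₂ (evJ jq) u = 0)
    (hA : ∀ (d : ℕ) (_ : NeZero d), d ∣ N → ∃ A : ℚ[X][X],
      qExpand ℚ d jq * (derivative χQ).eval₂ (evJ jq) u = A.eval₂ (evJ jq) u) :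
    modularFunctionFieldFull N ≤
      IntermediateField.adjoin ℚ ({jq, u} : Set (LaurentSeries ℚ)) := by
  obtain ⟨E, hE1, huE⟩ := hu
  have huE' : u = muSeries ℚ (((φ * (n - 1) : ℕ) : ℤ)) E := huE
  have hu0 : u ≠ 0 := by rw [huE']; exact muSeries_ne_zero _ hE1
  have huord : ordV ℚ u = ((((φ * (n - 1) : ℕ) : ℤ)) : WithTop ℤ) := by
    rw [huE']; exact ordV_muSeries _ hE1
  exact modularFunctionFieldFull_le_adjoin N hφ u hu0 (le_of_eq huord.symm) χQ hχm hχd hχc hχu hA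

/-- **(T)** in the `evJ` form: with `χQ(j, u) = 0` and `ordV j = -1`. -/
theorem inT_of_mem_adjoin' (jQ uQ : LaurentSeries ℚ)
    (hj : ordV ℚ jQ = ((-1 : ℤ) : WithTop ℤ))
    (χQ : ℚ[X][X]) (hχm : χQ.Monic) (hχu : χQ.eval₂ (evJ jQ) uQ = 0)
    {x : LaurentSeries ℚ}
    (hx : x ∈ IntermediateField.adjoin ℚ ({jQ, uQ} : Set (LaurentSeries ℚ))) :
    InT jQ uQ x := by
  refine inT_of_mem_adjoin jQ uQ ?_ χQ hχm ?_ hx
  · rw [pev1_eq_evJ]; exact evJ_injective jQ hj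
  · rwa [pev2_eq_eval₂_evJ]

end

end Fermat.Agent.S28
end MergeWrap_S28_DescentD3
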