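import Mathlib
import Fermat.Agent.MUL.S28.RedKernel
import Fermat.Agent.MUL.Orig.Lib.GoodRed.LiftStatements

section MergeWrap_S28_RedRing -- from S28/RedRing.lean

/-!
# S28: the ring `B = Z_(ℓ)[j,u]` localised at `{g(j) : g ≢ 0 mod ℓ}` and its reduction map `ρ`

`B ⊂ ℚ((q))` is the set of `x` with `x · g(j) = P(j,u)` for some `g ∈ Z_(ℓ)[Y]`, `g ≢ 0 mod ℓ`,
`P ∈ Z_(ℓ)[Y][X]`.  The reduction `ρ : B → F_ℓ((q))`, `x ↦ P̄(j̄,ū) / ḡ(j̄)`, is a ring homomorphism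
with kernel `ℓ B`.
-/

set_option autoImplicit false

namespace Fermat.Agent.S28

open Polynomial ModularCurve

noncomputable section

variable (ℓ : ℕ) [Fact ℓ.Prime]
variable (jR uR : LaurentSeries ↥(GaloisRep.ratLocalizedAt ℓ))

/-- coefficient inclusion `Z_(ℓ)((q)) → ℚ((q))` -/
abbrev incQ : LaurentSeries ↥(GaloisRep.ratLocalizedAt ℓ) →+* LaurentSeries ℚ :=
  coeffMap (GaloisRep.ratLocalizedAt ℓ).subtype

/-- coefficient reduction `Z_(ℓ)((q)) → F_ℓ((q))` -/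
abbrev redK : LaurentSeries ↥(GaloisRep.ratLocalizedAt ℓ) →+* LaurentSeries (ZMod ℓ) :=
  coeffMap (resR ℓ)

omit [Fact ℓ.Prime] in
theorem incQ_injective : Function.Injective (incQ ℓ) :=
  coeffMap_injective Subtype.val_injective

/-- Membership in `B`. -/
def InB (x : LaurentSeries ℚ) : Prop :=
  ∃ g : (↥(GaloisRep.ratLocalizedAt ℓ))[X], g.map (resR ℓ) ≠ 0 ∧
    ∃ P : (↥(GaloisRep.ratLocalizedAt ℓ))[X][X],
      x * incQ ℓ (pev1 jR g) = incQ ℓ (pev2 jR uR P)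

theorem inB_of_eq {x : LaurentSeries ℚ} (P : (↥(GaloisRep.ratLocalizedAt ℓ))[X][X])
    (h : x = incQ ℓ (pev2 jR uR P)) : InB ℓ jR uR x :=
  ⟨1, by rw [Polynomial.map_one]; exact one_ne_zero, P, by rw [map_one, map_one, mul_one, h]⟩

theorem inB_add {x y : LaurentSeries ℚ} (hx : InB ℓ jR uR x) (hy : InB ℓ jR uR y) :
    InB ℓ jR uR (x + y) := by
  obtain ⟨g, hg, P, hP⟩ := hx
  obtain ⟨g', hg', P', hP'⟩ := hy
  refine ⟨g * g', ?_, P * C g' + P' * C g, ?_⟩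
  · rw [Polynomial.map_mul]; exact mul_ne_zero hg hg'
  · simp only [map_add, map_mul, pev2_C]
    rw [← hP, ← hP']; ring

theorem inB_mul {x y : LaurentSeries ℚ} (hx : InB ℓ jR uR x) (hy : InB ℓ jR uR y) :
    InB ℓ jR uR (x * y) := by
  obtain ⟨g, hg, P, hP⟩ := hx
  obtain ⟨g', hg', P', hP'⟩ := hy
  refine ⟨g * g', ?_, P * P', ?_⟩
  · rw [Polynomial.map_mul]; exact mul_ne_zero hg hg'
  · simp only [map_mul]
    rw [← hP, ← hP']; ring

theorem inB_neg {x : LaurentSeries ℚ} (hx : InB ℓ jR uR x) : InB ℓ jR uR (-x) := by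
  obtain ⟨g, hg, P, hP⟩ := hx
  refine ⟨g, hg, -P, ?_⟩
  rw [map_neg, map_neg, ← hP, neg_mul]

/-- The ring `B`. -/
def Bsub : Subring (LaurentSeries ℚ) where
  carrier := {x | InB ℓ jR uR x}
  mul_mem' := fun hx hy => inB_mul ℓ jR uR hx hy
  one_mem' := inB_of_eq ℓ jR uR 1 (by rw [map_one, map_one])
  add_mem' := fun hx hy => inB_add ℓ jR uR hx hy
  zero_mem' := inB_of_eq ℓ jR uR 0 (by rw [map_zero, map_zero])
  neg_mem' := fun hx => inB_neg ℓ jR uR hx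

theorem mem_Bsub_iff {x : LaurentSeries ℚ} : x ∈ Bsub ℓ jR uR ↔ InB ℓ jR uR x := Iff.rfl

theorem incQ_pev2_mem (P : (↥(GaloisRep.ratLocalizedAt ℓ))[X][X]) :
    incQ ℓ (pev2 jR uR P) ∈ Bsub ℓ jR uR :=
  inB_of_eq ℓ jR uR P rfl

/-- raw reduction function -/
def rhoFun (x : ↥(Bsub ℓ jR uR)) : LaurentSeries (ZMod ℓ) :=
  redK ℓ (pev2 jR uR ((mem_Bsub_iff ℓ jR uR).mp x.2).choose_spec.2.choose) /
    redK ℓ (pev1 jR ((mem_Bsub_iff ℓ jR uR).mp x.2).choose)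

variable {jR uR}

theorem redK_pev1_ne_zero (hinj : Function.Injective (pev1 (redK ℓ jR)))
    {g : (↥(GaloisRep.ratLocalizedAt ℓ))[X]} (hg : g.map (resR ℓ) ≠ 0) :
    redK ℓ (pev1 jR g) ≠ 0 := by
  rw [coeffMap_pev1]
  intro h
  exact hg (hinj (by rw [h, map_zero]))

theorem rhoFun_eq (hinj : Function.Injective (pev1 (redK ℓ jR)))
    (x : ↥(Bsub ℓ jR uR))
    {g : (↥(GaloisRep.ratLocalizedAt ℓ))[X]} (hg : g.map (resR ℓ) ≠ 0)
    {P : (↥(GaloisRep.ratLocalizedAt ℓ))[X][X]}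
    (h : (x : LaurentSeries ℚ) * incQ ℓ (pev1 jR g) = incQ ℓ (pev2 jR uR P)) :
    rhoFun ℓ jR uR x = redK ℓ (pev2 jR uR P) / redK ℓ (pev1 jR g) := by
  have hx := (mem_Bsub_iff ℓ jR uR).mp x.2
  have hg₀ := hx.choose_spec.1
  have h₀ := hx.choose_spec.2.choose_spec
  have hcross : pev2 jR uR hx.choose_spec.2.choose * pev1 jR g =
      pev2 jR uR P * pev1 jR hx.choose := by
    apply incQ_injective ℓ
    rw [map_mul, map_mul, ← h₀, ← h]; ring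
  have hcross' := congrArg (redK ℓ) hcross
  rw [map_mul, map_mul] at hcross'
  show redK ℓ (pev2 jR uR hx.choose_spec.2.choose) / redK ℓ (pev1 jR hx.choose) = _
  rw [div_eq_div_iff (redK_pev1_ne_zero ℓ hinj hg₀) (redK_pev1_ne_zero ℓ hinj hg)]
  exact hcross'

variable (jR uR)

/-- The reduction map `ρ : B → F_ℓ((q))`. -/
def rho (hinj : Function.Injective (pev1 (redK ℓ jR))) :
    ↥(Bsub ℓ jR uR) →+* LaurentSeries (ZMod ℓ) where
  toFun x := rhoFun ℓ jR uR x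
  map_one' := by
    have h : ((1 : ↥(Bsub ℓ jR uR)) : LaurentSeries ℚ) * incQ ℓ (pev1 jR 1) =
        incQ ℓ (pev2 jR uR 1) := by
      simp only [map_one, mul_one, Subring.coe_one]
    have h1 : ((1 : (↥(GaloisRep.ratLocalizedAt ℓ))[X]).map (resR ℓ)) ≠ 0 := by
      rw [Polynomial.map_one]; exact one_ne_zero
    rw [rhoFun_eq ℓ hinj _ h1 h]
    simp only [map_one, div_one]
  map_zero' := by
    have h : ((0 : ↥(Bsub ℓ jR uR)) : LaurentSeries ℚ) * incQ ℓ (pev1 jR 1) =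
        incQ ℓ (pev2 jR uR 0) := by
      simp only [map_zero, zero_mul, Subring.coe_zero]
    have h1 : ((1 : (↥(GaloisRep.ratLocalizedAt ℓ))[X]).map (resR ℓ)) ≠ 0 := by
      rw [Polynomial.map_one]; exact one_ne_zero
    rw [rhoFun_eq ℓ hinj _ h1 h]
    simp only [map_zero, zero_div]
  map_mul' := by
    intro x y
    obtain ⟨g, hg, P, hP⟩ := (mem_Bsub_iff ℓ jR uR).mp x.2
    obtain ⟨g', hg', P', hP'⟩ := (mem_Bsub_iff ℓ jR uR).mp y.2
    have hgg : (g * g').map (resR ℓ) ≠ 0 := by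
      rw [Polynomial.map_mul]; exact mul_ne_zero hg hg'
    have hmul : ((x * y : ↥(Bsub ℓ jR uR)) : LaurentSeries ℚ) * incQ ℓ (pev1 jR (g * g')) =
        incQ ℓ (pev2 jR uR (P * P')) := by
      simp only [map_mul, Subring.coe_mul]
      rw [← hP, ← hP']; ring
    rw [rhoFun_eq ℓ hinj _ hgg hmul, rhoFun_eq ℓ hinj x hg hP, rhoFun_eq ℓ hinj y hg' hP']
    simp only [map_mul]
    rw [div_mul_div_comm]
  map_add' := by
    intro x y
    obtain ⟨g, hg, P, hP⟩ := (mem_Bsub_iff ℓ jR uR).mp x.2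
    obtain ⟨g', hg', P', hP'⟩ := (mem_Bsub_iff ℓ jR uR).mp y.2
    have hgg : (g * g').map (resR ℓ) ≠ 0 := by
      rw [Polynomial.map_mul]; exact mul_ne_zero hg hg'
    have hadd : ((x + y : ↥(Bsub ℓ jR uR)) : LaurentSeries ℚ) * incQ ℓ (pev1 jR (g * g')) =
        incQ ℓ (pev2 jR uR (P * C g' + P' * C g)) := by
      simp only [map_add, map_mul, pev2_C, Subring.coe_add]
      rw [← hP, ← hP']; ring
    rw [rhoFun_eq ℓ hinj _ hgg hadd, rhoFun_eq ℓ hinj x hg hP, rhoFun_eq ℓ hinj y hg' hP']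
    simp only [map_add, map_mul, pev2_C]
    rw [div_add_div _ _ (redK_pev1_ne_zero ℓ hinj hg) (redK_pev1_ne_zero ℓ hinj hg')]
    congr 1
    ring

variable {jR uR}

theorem rho_eq (hinj : Function.Injective (pev1 (redK ℓ jR)))
    (x : ↥(Bsub ℓ jR uR))
    {g : (↥(GaloisRep.ratLocalizedAt ℓ))[X]} (hg : g.map (resR ℓ) ≠ 0)
    {P : (↥(GaloisRep.ratLocalizedAt ℓ))[X][X]}
    (h : (x : LaurentSeries ℚ) * incQ ℓ (pev1 jR g) = incQ ℓ (pev2 jR uR P)) :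
    rho ℓ jR uR hinj x = redK ℓ (pev2 jR uR P) / redK ℓ (pev1 jR g) :=
  rhoFun_eq ℓ hinj x hg h

theorem rho_incQ_pev2 (hinj : Function.Injective (pev1 (redK ℓ jR)))
    (P : (↥(GaloisRep.ratLocalizedAt ℓ))[X][X]) :
    rho ℓ jR uR hinj ⟨incQ ℓ (pev2 jR uR P), incQ_pev2_mem ℓ jR uR P⟩ = redK ℓ (pev2 jR uR P) := by
  have h1 : ((1 : (↥(GaloisRep.ratLocalizedAt ℓ))[X]).map (resR ℓ)) ≠ 0 := by
    rw [Polynomial.map_one]; exact one_ne_zero
  rw [rho_eq ℓ hinj _ h1 (P := P) (by simp only [map_one, mul_one])]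
  simp only [map_one, div_one]

end

end Fermat.Agent.S28
end MergeWrap_S28_RedRing

section MergeWrap_S28_RedProps -- from S28/RedProps.lean

/-!
# S28 (K1–K3): properties of `B` and `ρ`

* `rho_ker` : `ker ρ = ℓ B`;
* constants of `Z_(ℓ)`, `j`, `j⁻¹`, `u` lie in `B`;
* `exists_normal_form` (K2): every nonzero `x ∈ ℚ(j)[u]` satisfies `ℓ^a x = ℓ^b y`, `y ∈ B`, `ρ y ≠ 0`;
* `mem_Bsub_of_isIntegral` (K3): `B` is integrally closed in `ℚ(j)[u]`.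
-/

set_option autoImplicit false

namespace Fermat.Agent.S28

open Polynomial ModularCurve

noncomputable section

variable (ℓ : ℕ) [Fact ℓ.Prime]
variable {jR uR : LaurentSeries ↥(GaloisRep.ratLocalizedAt ℓ)}

theorem natCast_laurentQ_ne_zero (d : ℕ) : ((ℓ : LaurentSeries ℚ) ^ d) ≠ 0 := by
  have hℓ : ((ℓ : ℕ) : LaurentSeries ℚ) ≠ 0 := by
    have h : ((ℓ : ℕ) : ℚ) ≠ 0 := by exact_mod_cast (Fact.out : ℓ.Prime).ne_zero
    have e : ((ℓ : ℕ) : LaurentSeries ℚ) = HahnSeries.C ((ℓ : ℕ) : ℚ) := by rw [map_natCast]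
    rw [e]
    exact HahnSeries.C_ne_zero h
  exact pow_ne_zero d hℓ

theorem natCast_laurentK_eq_zero : ((ℓ : ℕ) : LaurentSeries (ZMod ℓ)) = 0 := by
  have : ((ℓ : ℕ) : LaurentSeries (ZMod ℓ)) = HahnSeries.C ((ℓ : ℕ) : ZMod ℓ) := by
    rw [map_natCast]
  rw [this, ZMod.natCast_self, map_zero]

/-- **ker ρ = ℓ B**. -/
theorem rho_ker {n : ℕ}
    (χR : (↥(GaloisRep.ratLocalizedAt ℓ))[X][X]) (hχm : χR.Monic) (hχd : χR.natDegree = n)
    (hχu : pev2 jR uR χR = 0)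
    (hind : IndepUpTo (redK ℓ jR) (redK ℓ uR) n)
    (hinj : Function.Injective (pev1 (redK ℓ jR)))
    (x : ↥(Bsub ℓ jR uR)) (hx : rho ℓ jR uR hinj x = 0) :
    ∃ z : ↥(Bsub ℓ jR uR), (x : LaurentSeries ℚ) = (ℓ : LaurentSeries ℚ) * z := by
  obtain ⟨g, hg, P, hP⟩ := (mem_Bsub_iff ℓ jR uR).mp x.2
  rw [rho_eq ℓ hinj x hg hP, div_eq_zero_iff] at hx
  have hP0 : redK ℓ (pev2 jR uR P) = 0 := hx.resolve_right (redK_pev1_ne_zero ℓ hinj hg)
  obtain ⟨P', hP'⟩ := reduction_kernel ℓ jR uR χR hχm hχd hχu hind P hP0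
  have hℓ : ((ℓ : ℕ) : LaurentSeries ℚ) ≠ 0 := by
    simpa using natCast_laurentQ_ne_zero ℓ 1
  have hz : InB ℓ jR uR ((x : LaurentSeries ℚ) / (ℓ : LaurentSeries ℚ)) := by
    refine ⟨g, hg, P', ?_⟩
    rw [div_mul_eq_mul_div, hP, hP', map_mul, map_natCast]
    field_simp
  exact ⟨⟨_, hz⟩, by
    show (x : LaurentSeries ℚ) = (ℓ : LaurentSeries ℚ) * ((x : LaurentSeries ℚ) / (ℓ : LaurentSeries ℚ))
    field_simp⟩

theorem rho_natCast_ell (hinj : Function.Injective (pev1 (redK ℓ jR))) :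
    rho ℓ jR uR hinj ((ℓ : ℕ) : ↥(Bsub ℓ jR uR)) = 0 := by
  rw [map_natCast]; exact natCast_laurentK_eq_zero ℓ

variable (jR uR)

theorem const_mem_Bsub (r : ↥(GaloisRep.ratLocalizedAt ℓ)) :
    (HahnSeries.C (r : ℚ) : LaurentSeries ℚ) ∈ Bsub ℓ jR uR := by
  refine inB_of_eq ℓ jR uR (C (C r)) ?_
  rw [pev2_C, pev1_C, coeffMap_hahnC]
  rfl

theorem j_mem_Bsub : incQ ℓ jR ∈ Bsub ℓ jR uR := by
  refine inB_of_eq ℓ jR uR (C X) ?_
  rw [pev2_C, pev1_X]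

theorem u_mem_Bsub : incQ ℓ uR ∈ Bsub ℓ jR uR := by
  refine inB_of_eq ℓ jR uR X ?_
  rw [pev2_X]

theorem jinv_mem_Bsub (hj : incQ ℓ jR ≠ 0) : (incQ ℓ jR)⁻¹ ∈ Bsub ℓ jR uR := by
  refine ⟨X, ?_, 1, ?_⟩
  · rw [Polynomial.map_X]; exact X_ne_zero
  · rw [pev1_X, map_one, map_one, inv_mul_cancel₀ hj]

variable {jR uR}

/-- `j` is transcendental over `ℚ` as soon as `j̄` is transcendental over `F_ℓ`. -/
theorem pev1_incQ_injective (hinj : Function.Injective (pev1 (redK ℓ jR))) :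
    Function.Injective (pev1 (incQ ℓ jR)) := by
  rw [injective_iff_map_eq_zero]
  intro g hg
  by_contra hg0
  obtain ⟨a, b, g₀, hres, heq⟩ := (gaussTriple_poly1 ℓ).nrm g hg0
  have h1 : pev1 (incQ ℓ jR) ((ℓ : ℚ[X]) ^ b * (mapRingHom (GaloisRep.ratLocalizedAt ℓ).subtype) g₀) = 0 := by
    rw [← heq, map_mul, hg, mul_zero]
  rw [map_mul, map_pow, map_natCast] at h1
  have h2 : pev1 (incQ ℓ jR) ((mapRingHom (GaloisRep.ratLocalizedAt ℓ).subtype) g₀) = 0 :=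
    (mul_eq_zero.mp h1).resolve_left (natCast_laurentQ_ne_zero ℓ b)
  have h3 : pev1 jR g₀ = 0 := by
    apply incQ_injective ℓ
    rw [coeffMap_pev1, map_zero]
    exact h2
  apply hres
  apply hinj
  have : pev1 (redK ℓ jR) ((mapRingHom (resR ℓ)) g₀) = redK ℓ (pev1 jR g₀) := by
    rw [coeffMap_pev1]; rfl
  rw [this, h3, map_zero, map_zero]

/-- Rational representation `x · g(j) = P(j,u)`: membership in `ℚ(j)[u]`. -/
def InT (jQ uQ : LaurentSeries ℚ) (x : LaurentSeries ℚ) : Prop :=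
  ∃ g : ℚ[X], g ≠ 0 ∧ ∃ P : ℚ[X][X], x * pev1 jQ g = pev2 jQ uQ P

theorem natDegree_natCast_pow_mul_rat (b : ℕ) (P : ℚ[X][X]) :
    (((ℓ : ℕ) : ℚ[X][X]) ^ b * P).natDegree = P.natDegree := by
  have hℓ : ((ℓ : ℚ) ^ b) ≠ 0 := pow_ne_zero _ (by exact_mod_cast (Fact.out : ℓ.Prime).ne_zero)
  have h1 : ((ℓ : ℕ) : ℚ[X][X]) = C (C (ℓ : ℚ)) := by simp
  rw [h1, ← C_pow, ← C_pow]
  exact natDegree_C_mul (by rw [Ne, C_eq_zero]; exact hℓ)

/-- **(K2)** normal form of a nonzero element of `ℚ(j)[u]`. -/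
theorem exists_normal_form {n : ℕ}
    (χR : (↥(GaloisRep.ratLocalizedAt ℓ))[X][X]) (hχm : χR.Monic) (hχd : χR.natDegree = n)
    (hχu : pev2 jR uR χR = 0)
    (hind : IndepUpTo (redK ℓ jR) (redK ℓ uR) n)
    (hinj : Function.Injective (pev1 (redK ℓ jR)))
    {x : LaurentSeries ℚ} (hxT : InT (incQ ℓ jR) (incQ ℓ uR) x) (hx0 : x ≠ 0) :
    ∃ (a b : ℕ) (y : ↥(Bsub ℓ jR uR)), rho ℓ jR uR hinj y ≠ 0 ∧
      (ℓ : LaurentSeries ℚ) ^ a * x = (ℓ : LaurentSeries ℚ) ^ b * (y : LaurentSeries ℚ) := by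
  classical
  obtain ⟨g, hg, P, hP⟩ := hxT
  set ι := (GaloisRep.ratLocalizedAt ℓ).subtype with hι
  have hιinj : Function.Injective ι := Subtype.val_injective
  have hι1 : Function.Injective (mapRingHom ι) := Polynomial.map_injective ι hιinj
  have hι2 : Function.Injective (mapRingHom (mapRingHom ι)) := Polynomial.map_injective _ hι1
  have hn : 0 < n := indep_pos ℓ jR uR χR hχm hχd hχu
  set χQ : ℚ[X][X] := (mapRingHom (mapRingHom ι)) χR with hχQ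
  have hχQm : χQ.Monic := hχm.map _
  have hχQd : χQ.natDegree = n := by
    rw [← hχd]; exact natDegree_map_eq_of_injective hι1 _
  have hχQ1 : χQ ≠ 1 := by
    intro h; rw [h, natDegree_one] at hχQd; omega
  have hχQu : pev2 (incQ ℓ jR) (incQ ℓ uR) χQ = 0 := by
    have : χQ = Polynomial.map (mapRingHom ι) χR := rfl
    rw [this, ← coeffMap_pev2, hχu, map_zero]
  set P₁ := P %ₘ χQ with hP₁
  have hdiv : P₁ + χQ * (P /ₘ χQ) = P := modByMonic_add_div P χQ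
  have hev : pev2 (incQ ℓ jR) (incQ ℓ uR) P = pev2 (incQ ℓ jR) (incQ ℓ uR) P₁ := by
    conv_lhs => rw [← hdiv]
    rw [map_add, map_mul, hχQu, zero_mul, add_zero]
  have hdeg : P₁.natDegree < n := by
    rw [← hχQd]; exact natDegree_modByMonic_lt P hχQm hχQ1
  have hinjQ := pev1_incQ_injective ℓ hinj
  have hgj : pev1 (incQ ℓ jR) g ≠ 0 := fun h => hg (hinjQ (by rw [h, map_zero]))
  have hP₁0 : P₁ ≠ 0 := by
    intro h
    rw [hev, h, map_zero] at hP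
    exact (mul_ne_zero hx0 hgj) hP
  obtain ⟨a₁, b₁, g₀, hg₀, hgeq⟩ := (gaussTriple_poly1 ℓ).nrm g hg
  obtain ⟨a₂, b₂, P₀, hP₀, hPeq⟩ := (gaussTriple_poly2 ℓ).nrm P₁ hP₁0
  have hdeg₀ : P₀.natDegree < n := by
    have e1 : P₀.natDegree = ((mapRingHom (mapRingHom ι)) P₀).natDegree :=
      (natDegree_map_eq_of_injective hι1 _).symm
    have e2 := natDegree_natCast_pow_mul_rat ℓ b₂ ((mapRingHom (mapRingHom ι)) P₀)
    have e3 := natDegree_natCast_pow_mul_rat ℓ a₂ P₁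
    rw [e1, ← e2, ← hPeq, e3]; exact hdeg
  have hredP : redK ℓ (pev2 jR uR P₀) ≠ 0 := by
    intro h
    apply hP₀
    apply hind
    · exact lt_of_le_of_lt natDegree_map_le hdeg₀
    · have : (mapRingHom (mapRingHom (resR ℓ))) P₀ = Polynomial.map (mapRingHom (resR ℓ)) P₀ := rfl
      rw [this, ← coeffMap_pev2]; exact h
  -- evaluate the two normalisations
  have hgev : (ℓ : LaurentSeries ℚ) ^ a₁ * pev1 (incQ ℓ jR) g =
      (ℓ : LaurentSeries ℚ) ^ b₁ * incQ ℓ (pev1 jR g₀) := by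
    have := congrArg (pev1 (incQ ℓ jR)) hgeq
    rw [map_mul, map_mul, map_pow, map_pow, map_natCast] at this
    rw [this, coeffMap_pev1]; rfl
  have hPev : (ℓ : LaurentSeries ℚ) ^ a₂ * pev2 (incQ ℓ jR) (incQ ℓ uR) P₁ =
      (ℓ : LaurentSeries ℚ) ^ b₂ * incQ ℓ (pev2 jR uR P₀) := by
    have := congrArg (pev2 (incQ ℓ jR) (incQ ℓ uR)) hPeq
    rw [map_mul, map_mul, map_pow, map_pow, map_natCast] at this
    rw [this, coeffMap_pev2]; rfl
  have hL : ∀ d : ℕ, ((ℓ : LaurentSeries ℚ) ^ d) ≠ 0 := natCast_laurentQ_ne_zero ℓ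
  set y : LaurentSeries ℚ :=
    x * (ℓ : LaurentSeries ℚ) ^ (b₁ + a₂) / (ℓ : LaurentSeries ℚ) ^ (a₁ + b₂) with hy
  have hyeq : y * incQ ℓ (pev1 jR g₀) = incQ ℓ (pev2 jR uR P₀) := by
    have h1 : x * ((ℓ : LaurentSeries ℚ) ^ b₁ * incQ ℓ (pev1 jR g₀)) * (ℓ : LaurentSeries ℚ) ^ a₂ =
        (ℓ : LaurentSeries ℚ) ^ a₁ * ((ℓ : LaurentSeries ℚ) ^ b₂ * incQ ℓ (pev2 jR uR P₀)) := by
      rw [← hgev, ← hPev, ← hev, ← hP]; ring
    rw [hy, div_mul_eq_mul_div, div_eq_iff (hL _)]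
    rw [pow_add, pow_add]
    linear_combination h1
  have hyB : InB ℓ jR uR y := ⟨g₀, hg₀, P₀, hyeq⟩
  refine ⟨b₁ + a₂, a₁ + b₂, ⟨y, hyB⟩, ?_, ?_⟩
  · rw [rho_eq ℓ hinj ⟨y, hyB⟩ hg₀ hyeq]
    exact div_ne_zero hredP (redK_pev1_ne_zero ℓ hinj hg₀)
  · show _ = (ℓ : LaurentSeries ℚ) ^ (a₁ + b₂) * y
    rw [hy, mul_div_assoc', mul_comm ((ℓ : LaurentSeries ℚ) ^ (a₁ + b₂)), mul_div_assoc,
      div_self (hL _), mul_one, mul_comm]

end

end Fermat.Agent.S28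
end MergeWrap_S28_RedProps
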