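import Fermat.Agent.MUL.Orig.S23.LevelOne
import Fermat.Agent.MUL.Orig.S23.Esymm
import Fermat.Agent.MUL.S23.Lagrange

section MergeWrap_S28_LevelOnePoly -- from S28/LevelOnePoly.lean

set_option autoImplicit false

namespace Fermat.Agent.S28

open UpperHalfPlane ModularForm MatrixGroups EisensteinSeries Polynomial
open Fermat.Agent.S23

/-- Klein's modular function `J = E₄³ / Δ` (normalised as `1/q + 744 + ⋯`). -/
noncomputable def wp4J (τ : ℍ) : ℂ := E₄ τ ^ 3 / discriminant τ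

lemma wp4J_def (τ : ℍ) : wp4J τ = E₄ τ ^ 3 / discriminant τ := rfl

lemma wp4_discriminant_mul_J (τ : ℍ) : discriminant τ * wp4J τ = E₄ τ ^ 3 := by
  rw [wp4J, mul_div_cancel₀ _ (discriminant_ne_zero τ)]

lemma wp4_E6_sq (τ : ℍ) : E₆ τ ^ 2 = discriminant τ * (wp4J τ - 1728) := by
  rw [mul_sub, wp4_discriminant_mul_J, discriminant_eq_E₄_cube_sub_E₆_sq]
  ring

/-- The property "`g = Δ ^ m · P(J)` with `deg P ≤ m`". -/
def Wp4IsDeltaPoly (m : ℕ) (g : ℍ → ℂ) : Prop :=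
  ∃ P : Polynomial ℂ, P.natDegree ≤ m ∧ ∀ τ : ℍ, g τ = discriminant τ ^ m * P.eval (wp4J τ)

lemma wp4IsDeltaPoly_zero (m : ℕ) : Wp4IsDeltaPoly m (0 : ℍ → ℂ) :=
  ⟨0, by simp, fun τ => by simp⟩

lemma Wp4IsDeltaPoly.add {m : ℕ} {g h : ℍ → ℂ} (hg : Wp4IsDeltaPoly m g)
    (hh : Wp4IsDeltaPoly m h) : Wp4IsDeltaPoly m (g + h) := by
  obtain ⟨P, hP, hPe⟩ := hg
  obtain ⟨Q, hQ, hQe⟩ := hh
  refine ⟨P + Q, (natDegree_add_le _ _).trans (max_le hP hQ), fun τ => ?_⟩
  rw [Pi.add_apply, hPe, hQe, eval_add]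
  ring

lemma Wp4IsDeltaPoly.smul {m : ℕ} {g : ℍ → ℂ} (c : ℂ) (hg : Wp4IsDeltaPoly m g) :
    Wp4IsDeltaPoly m (c • g) := by
  obtain ⟨P, hP, hPe⟩ := hg
  refine ⟨C c * P, (natDegree_C_mul_le _ _).trans hP, fun τ => ?_⟩
  rw [Pi.smul_apply, hPe, eval_mul, eval_C, smul_eq_mul]
  ring

/-- Multiplying by a weight `12` factor `Δ · (a J + b)`. -/
lemma Wp4IsDeltaPoly.mul {m n : ℕ} {g h : ℍ → ℂ} (hg : Wp4IsDeltaPoly m g)
    (hh : Wp4IsDeltaPoly n h) : Wp4IsDeltaPoly (m + n) (g * h) := by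
  obtain ⟨P, hP, hPe⟩ := hg
  obtain ⟨Q, hQ, hQe⟩ := hh
  refine ⟨P * Q, natDegree_mul_le.trans (Nat.add_le_add hP hQ), fun τ => ?_⟩
  rw [Pi.mul_apply, hPe, hQe, eval_mul]
  ring

lemma wp4IsDeltaPoly_monomial (a b : ℕ) :
    Wp4IsDeltaPoly (a + b) (fun τ : ℍ => (E₄ τ ^ 3) ^ a * (E₆ τ ^ 2) ^ b) := by
  refine ⟨X ^ a * (X - C 1728) ^ b, ?_, fun τ => ?_⟩
  · refine natDegree_mul_le.trans (Nat.add_le_add ?_ ?_)
    · exact (natDegree_pow_le).trans (by simp)
    · refine (natDegree_pow_le).trans ?_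
      have : (X - C (1728 : ℂ)).natDegree ≤ 1 := natDegree_X_sub_C_le _
      simp
  · simp only [eval_mul, eval_pow, eval_X, eval_sub, eval_C]
    rw [← wp4_discriminant_mul_J, wp4_E6_sq, mul_pow, mul_pow, pow_add]
    ring

/-- **WP4 (a)**, general weight form: a level one modular form of weight `k = 12 m` is
`Δ ^ m · P(J)` for a polynomial `P` of degree `≤ m`. -/
theorem wp4_levelOne_isDeltaPoly {k : ℤ} (m : ℕ) (hk : k = 12 * (m : ℤ))
    (f : ModularForm 𝒮ℒ k) : Wp4IsDeltaPoly m (f : ℍ → ℂ) := by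
  have hf := mem_span_monoSet' k f
  induction hf using Submodule.span_induction with
  | mem g hg =>
    obtain ⟨a, b, h, rfl⟩ := hg
    have h1 : (4 * a + 6 * b : ℤ) = 12 * m := h.trans hk
    obtain ⟨a', ha'⟩ : ∃ a' : ℕ, a = 3 * a' := ⟨a / 3, by omega⟩
    obtain ⟨b', hb'⟩ : ∃ b' : ℕ, b = 2 * b' := ⟨b / 2, by omega⟩
    have hm : m = a' + b' := by omega
    have := wp4IsDeltaPoly_monomial a' b'
    rw [← hm] at this
    convert this using 1
    funext τ
    rw [monoForm_apply, ha', hb', pow_mul, pow_mul]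
  | zero => simpa using wp4IsDeltaPoly_zero m
  | add g h _ _ hg hh => simpa using hg.add hh
  | smul c g _ hg => simpa using hg.smul c

/-- **WP4 (a)**: for `f ∈ M_{12 m}(SL(2,ℤ))` there is `P ∈ ℂ[X]` of degree `≤ m` with
`f = Δ ^ m · P(E₄³ / Δ)`. -/
theorem wp4_levelOne_eq_delta_pow_mul_poly (m : ℕ) (f : ModularForm 𝒮ℒ (12 * (m : ℤ))) :
    ∃ P : Polynomial ℂ, P.natDegree ≤ m ∧
      ∀ τ : ℍ, f τ = discriminant τ ^ m * P.eval (E₄ τ ^ 3 / discriminant τ) :=
  wp4_levelOne_isDeltaPoly m rfl f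

/-- Version for functions known to be level one modular forms. -/
theorem wp4_isDeltaPoly_of_isMF {k : ℤ} (m : ℕ) (hk : k = 12 * (m : ℤ)) {g : ℍ → ℂ}
    (hg : IsMF 𝒮ℒ k g) : Wp4IsDeltaPoly m g := by
  obtain ⟨G, rfl⟩ := hg
  exact wp4_levelOne_isDeltaPoly m hk G

/-- **WP4 (b)**: the `i`-th elementary symmetric function of the `SL(2,ℤ)`-translates of a
weight `12 M` form on `Γ₀(N)` is `Δ ^ (M i) · P(J)` with `deg P ≤ M i`. -/
theorem wp4_esymmFun_eq_delta_pow_mul_poly (N : ℕ) [NeZero N] (M : ℕ)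
    (F : ModularForm (G0 N) (12 * (M : ℤ))) (i : ℕ) :
    ∃ P : Polynomial ℂ, P.natDegree ≤ M * i ∧
      ∀ τ : ℍ, esymmFun N F i τ = discriminant τ ^ (M * i) * P.eval (wp4J τ) :=
  wp4_isDeltaPoly_of_isMF (M * i) (by push_cast; ring) (isMF_esymmFun N F i)

/-- **WP4 (b)**, general weight form. -/
theorem wp4_esymmFun_isDeltaPoly (N : ℕ) [NeZero N] {k : ℤ} (M : ℕ) (hk : k = 12 * (M : ℤ))
    (F : ModularForm (G0 N) k) (i : ℕ) : Wp4IsDeltaPoly (M * i) (esymmFun N F i) :=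
  wp4_isDeltaPoly_of_isMF (M * i) (by rw [hk]; push_cast; ring) (isMF_esymmFun N F i)

/-- **WP4 (c)**: the characteristic polynomial `∏_q (X - F_q / Δ ^ M)` of the conjugates of
`F / Δ ^ M` (`F` of weight `12 M` on `Γ₀(N)`, `q` running over `SL(2,ℤ) / Γ₀(N)`) has
coefficients in `ℂ[J]`, the `j`-th one of degree `≤ M (n - j)`, where `n = [SL(2,ℤ) : Γ₀(N)]`. -/
theorem wp4_exists_charPoly (N : ℕ) [NeZero N] (M : ℕ)
    (F : ModularForm (G0 N) (12 * (M : ℤ))) :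
    ∃ c : ℕ → Polynomial ℂ,
      (∀ j, j ≤ Fintype.card (Q N) → (c j).natDegree ≤ M * (Fintype.card (Q N) - j)) ∧
      c (Fintype.card (Q N)) = 1 ∧
      ∀ τ : ℍ, ∀ j, j ≤ Fintype.card (Q N) →
        (rootPoly (fun q : Q N =>
          SlashInvariantForm.quotientFunc F q τ / discriminant τ ^ M)).coeff j =
          (c j).eval (wp4J τ) := by
  classical
  set n := Fintype.card (Q N) with hn
  choose P hPdeg hPeval using fun i : ℕ => wp4_esymmFun_eq_delta_pow_mul_poly N M F i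
  refine ⟨fun j => if j = n then 1 else C ((-1 : ℂ) ^ (n - j)) * P (n - j), ?_, ?_, ?_⟩
  · intro j _
    by_cases hj : j = n
    · simp [hj]
    · simp only [hj, if_false]
      exact (natDegree_C_mul_le _ _).trans (hPdeg _)
  · simp
  · intro τ j hj
    by_cases hjn : j = n
    · subst hjn
      simp only [if_true, eval_one]
      rw [rootPoly_coeff _ _ hj, ← hn, Nat.sub_self]
      simp
    · simp only [hjn, if_false, eval_mul, eval_C]
      rw [rootPoly_coeff _ _ hj, ← hn]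
      congr 1
      have h1 := hPeval (n - j) τ
      rw [esymmFun_apply] at h1
      have hΔ : discriminant τ ^ (M * (n - j)) ≠ 0 := pow_ne_zero _ (discriminant_ne_zero τ)
      rw [eq_comm, ← mul_right_inj' hΔ, ← h1, Finset.mul_sum]
      refine Finset.sum_congr rfl fun s hs => ?_
      rw [Finset.prod_div_distrib, Finset.prod_const, (Finset.mem_powersetCard.mp hs).2,
        ← pow_mul, mul_div_cancel₀ _ hΔ]

/-- **WP4 (c')**: `F / Δ ^ M` is a root of a monic polynomial of degree `n = [SL(2,ℤ) : Γ₀(N)]`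
with coefficients in `ℂ[J]`, the `j`-th one of degree `≤ M (n - j)`. -/
theorem wp4_exists_monic_relation (N : ℕ) [NeZero N] (M : ℕ)
    (F : ModularForm (G0 N) (12 * (M : ℤ))) :
    ∃ c : ℕ → Polynomial ℂ,
      (∀ j, j < Fintype.card (Q N) → (c j).natDegree ≤ M * (Fintype.card (Q N) - j)) ∧
      ∀ τ : ℍ, (F τ / discriminant τ ^ M) ^ Fintype.card (Q N) +
        ∑ j ∈ Finset.range (Fintype.card (Q N)),
          (c j).eval (wp4J τ) * (F τ / discriminant τ ^ M) ^ j = 0 := by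
  classical
  obtain ⟨c, hdeg, hone, hc⟩ := wp4_exists_charPoly N M F
  refine ⟨c, fun j hj => hdeg j hj.le, fun τ => ?_⟩
  set t : Q N → ℂ := fun q => SlashInvariantForm.quotientFunc F q τ / discriminant τ ^ M with ht
  have h0 : (rootPoly t).eval (F τ / discriminant τ ^ M) = 0 := by
    have := rootPoly_eval_root t (QuotientGroup.mk 1 : Q N)
    rwa [show t (QuotientGroup.mk 1 : Q N) = F τ / discriminant τ ^ M by
      rw [ht]; simp only; rw [quotientFunc_one (N := N) F]] at this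
  rw [Polynomial.eval_eq_sum_range, rootPoly_natDegree, Finset.sum_range_succ] at h0
  rw [hc τ _ le_rfl, hone, eval_one, one_mul] at h0
  rw [add_comm, ← h0]
  congr 1
  refine Finset.sum_congr rfl fun j hj => ?_
  rw [hc τ j (Finset.mem_range.mp hj).le]

end Fermat.Agent.S28
end MergeWrap_S28_LevelOnePoly
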