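import Mathlib
import Fermat.Prelude.Def_ModularCurve_X0
import Fermat.Prelude.Def_ModularCurve_JqCoeff
import Fermat.Agent.MUL.Orig.S23.MF

section MergeWrap_S28_QBridge -- from S28/QBridge.lean

set_option autoImplicit false

namespace Fermat.Agent.S28.QExp

open UpperHalfPlane ModularForm Filter Complex Function
open scoped Real Topology
open scoped PowerSeries.WithPiTopology

/-- Taylor power series at `0` of a function `ℂ → ℂ`. -/
noncomputable def taylor0 (c : ℂ → ℂ) : PowerSeries ℂ :=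
  .mk fun m => ((m.factorial : ℂ))⁻¹ * iteratedDeriv m c 0

lemma coeff_taylor0 (c : ℂ → ℂ) (m : ℕ) :
    (taylor0 c).coeff m = ((m.factorial : ℂ))⁻¹ * iteratedDeriv m c 0 := by
  simp [taylor0]

lemma hasFPowerSeriesAt_taylor0 {c : ℂ → ℂ} (hc : AnalyticAt ℂ c 0) :
    HasFPowerSeriesAt c (FormalMultilinearSeries.ofScalars ℂ fun n => (taylor0 c).coeff n) 0 := by
  have := hc.hasFPowerSeriesAt
  simpa [coeff_taylor0, div_eq_inv_mul] using this

lemma taylor0_eq_of_hasFPowerSeriesAt {c : ℂ → ℂ} {a : ℕ → ℂ}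
    (h : HasFPowerSeriesAt c (FormalMultilinearSeries.ofScalars ℂ a) 0) :
    taylor0 c = PowerSeries.mk a := by
  have h2 := hasFPowerSeriesAt_taylor0 h.analyticAt
  have h3 := h.eq_formalMultilinearSeries h2
  ext n
  have := congr_arg (FormalMultilinearSeries.coeff · n) h3
  simp only [FormalMultilinearSeries.coeff_ofScalars] at this
  rw [PowerSeries.coeff_mk, this]

/-- A power series expansion near `0` from pointwise sums. -/
lemma hasFPowerSeriesAt_of_hasSum {c : ℂ → ℂ} {a : ℕ → ℂ} {r : ℝ} (hr : 0 < r)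
    (h : ∀ q : ℂ, ‖q‖ < r → HasSum (fun n => a n * q ^ n) (c q)) :
    HasFPowerSeriesAt c (FormalMultilinearSeries.ofScalars ℂ a) 0 := by
  refine ⟨ENNReal.ofReal r, ?_, ?_, ?_⟩
  · refine le_of_forall_lt_imp_le_of_dense fun s hs => ?_
    lift s to NNReal using hs.ne_top
    apply FormalMultilinearSeries.le_radius_of_summable
    have hs' : (s : ℝ) < r := by
      have := (ENNReal.coe_lt_coe (r := s) (q := r.toNNReal)).mp (by simpa [ENNReal.ofReal] using hs)
      simpa using (NNReal.coe_lt_coe.mpr this).trans_le (by simp [hr.le])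
    have := (h (s : ℂ) (by simpa using hs')).summable.norm
    simpa [FormalMultilinearSeries.ofScalars_norm, norm_mul, norm_pow] using this
  · simpa using hr
  · intro y hy
    have hy' : ‖y‖ < r := by
      rw [Metric.mem_eball, edist_zero_right, ← ofReal_norm] at hy
      exact (ENNReal.ofReal_lt_ofReal_iff hr).mp hy
    simpa [FormalMultilinearSeries.ofScalars_apply_eq, mul_comm] using h y hy'

/-- Taylor series of a polynomial function. -/
lemma taylor0_polynomial (P : Polynomial ℂ) :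
    taylor0 (fun q => P.eval q) = (P : PowerSeries ℂ) := by
  have h : HasFPowerSeriesAt (fun q => P.eval q)
      (FormalMultilinearSeries.ofScalars ℂ fun n => P.coeff n) 0 := by
    refine hasFPowerSeriesAt_of_hasSum one_pos fun q _ => ?_
    rw [Polynomial.eval_eq_sum_range]
    refine hasSum_sum_of_ne_finset_zero fun n hn => ?_
    rw [Polynomial.coeff_eq_zero_of_natDegree_lt, zero_mul]
    simpa [Nat.lt_succ_iff] using hn
  rw [taylor0_eq_of_hasFPowerSeriesAt h]
  ext n
  simp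

/-- Taylor coefficients pass to locally uniform limits of holomorphic functions. -/
lemma tendsto_coeff_taylor0 {ι : Type*} {φ : Filter ι} {F : ι → ℂ → ℂ} {f : ℂ → ℂ}
    {U : Set ℂ} (hU : IsOpen U) (h0 : (0 : ℂ) ∈ U) (hf : TendstoLocallyUniformlyOn F f φ U)
    (hF : ∀ᶠ n in φ, DifferentiableOn ℂ (F n) U) (m : ℕ) :
    Tendsto (fun n => (taylor0 (F n)).coeff m) φ (𝓝 ((taylor0 f).coeff m)) := by
  have key : ∀ m : ℕ, TendstoLocallyUniformlyOn (fun n => iteratedDeriv m (F n))
      (iteratedDeriv m f) φ U ∧ ∀ᶠ n in φ, DifferentiableOn ℂ (iteratedDeriv m (F n)) U := by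
    intro m
    induction m with
    | zero => simpa using ⟨hf, hF⟩
    | succ m ih =>
      refine ⟨?_, ih.2.mono fun n hn => ?_⟩
      · have := ih.1.deriv ih.2 hU
        simpa [Function.comp_def, iteratedDeriv_succ] using this
      · rw [iteratedDeriv_succ]
        exact hn.deriv hU
  simp only [coeff_taylor0]
  exact ((key m).1.tendsto_at h0).const_mul _

open ModularCurve in
/-- The Taylor series of the Euler product is the Prelude's formal `etaProd`. -/
theorem taylor0_eulerProd :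
    taylor0 (fun q : ℂ => ∏' n : ℕ, (1 - q ^ (n + 1))) =
      PowerSeries.map (Int.castRingHom ℂ) etaProd := by
  ext m
  -- analytic side
  have hloc := multipliableLocallyUniformlyOn_one_sub_pow.hasProdLocallyUniformlyOn
  rw [hasProdLocallyUniformlyOn_iff_tendstoLocallyUniformlyOn] at hloc
  have h1 := tendsto_coeff_taylor0 Metric.isOpen_ball (Metric.mem_ball_self one_pos) hloc
    (.of_forall fun s => by
      have : (fun q : ℂ => ∏ i ∈ s, (1 - q ^ (i + 1))) =
          fun q => (∏ i ∈ s, (1 - Polynomial.X ^ (i + 1) : Polynomial ℂ)).eval q := by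
        funext q; simp [Polynomial.eval_prod]
      simp only [this]
      exact (Polynomial.differentiable _).differentiableOn) m
  -- formal side
  have h2 := (PowerSeries.WithPiTopology.multipliable_one_sub_X_pow ℤ).hasProd
  have h3 : Tendsto (fun s : Finset ℕ => (((∏ i ∈ s, (1 - PowerSeries.X ^ (i + 1) :
      PowerSeries ℤ)).coeff m : ℤ) : ℂ)) atTop (𝓝 ((etaProd.coeff m : ℤ) : ℂ)) := by
    have hc : Continuous (fun p : PowerSeries ℤ => ((p.coeff m : ℤ) : ℂ)) :=
      continuous_of_discreteTopology.comp (PowerSeries.WithPiTopology.continuous_coeff ℤ m)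
    exact (hc.tendsto _).comp h2
  rw [PowerSeries.coeff_map]
  refine tendsto_nhds_unique h1 (h3.congr fun s => ?_)
  have : (fun q : ℂ => ∏ i ∈ s, (1 - q ^ (i + 1))) =
      fun q => (∏ i ∈ s, (1 - Polynomial.X ^ (i + 1) : Polynomial ℂ)).eval q := by
    funext q; simp [Polynomial.eval_prod]
  rw [this, taylor0_polynomial]
  have h4 : ((∏ i ∈ s, (1 - Polynomial.X ^ (i + 1) : Polynomial ℂ) : Polynomial ℂ) :
      PowerSeries ℂ) = PowerSeries.map (Int.castRingHom ℂ)
        (∏ i ∈ s, (1 - PowerSeries.X ^ (i + 1) : PowerSeries ℤ)) := by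
    rw [← Polynomial.coeToPowerSeries.ringHom_apply, map_prod, map_prod]
    refine Finset.prod_congr rfl fun i _ => ?_
    simp
  rw [h4, PowerSeries.coeff_map]
  rfl


lemma exists_hasSum_of_analyticAt {c : ℂ → ℂ} (hc : AnalyticAt ℂ c 0) :
    ∃ r : ℝ, 0 < r ∧ r ≤ 1 ∧
      ∀ q : ℂ, ‖q‖ < r → HasSum (fun n => (taylor0 c).coeff n * q ^ n) (c q) := by
  obtain ⟨R, hR⟩ := hasFPowerSeriesAt_taylor0 hc
  have hRpos := hR.r_pos
  obtain ⟨ρ, hρ0, hρR⟩ := ENNReal.lt_iff_exists_real_btwn.mp hRpos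
  refine ⟨min ρ 1, lt_min (by simpa using hρR.1) one_pos, min_le_right _ _, fun q hq => ?_⟩
  have hq' : q ∈ Metric.eball (0 : ℂ) R := by
    rw [Metric.mem_eball, edist_zero_right, ← ofReal_norm]
    exact lt_of_le_of_lt (ENNReal.ofReal_le_ofReal (hq.le.trans (min_le_left _ _))) hρR.2
  have := hR.hasSum hq'
  simpa [FormalMultilinearSeries.ofScalars_apply_eq, mul_comm] using this

/-- The power series `p(X^d)`. -/
noncomputable def psExpand (d : ℕ) (p : PowerSeries ℂ) : PowerSeries ℂ :=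
  PowerSeries.mk fun m => if d ∣ m then p.coeff (m / d) else 0

lemma coeff_psExpand (d : ℕ) (p : PowerSeries ℂ) (m : ℕ) :
    (psExpand d p).coeff m = if d ∣ m then p.coeff (m / d) else 0 := by
  simp [psExpand]

/-- Taylor expansion of `q ↦ c (q ^ d)`. -/
lemma taylor0_comp_pow {c : ℂ → ℂ} (hc : AnalyticAt ℂ c 0) {d : ℕ} (hd : 0 < d) :
    AnalyticAt ℂ (fun q => c (q ^ d)) 0 ∧
      taylor0 (fun q => c (q ^ d)) = psExpand d (taylor0 c) := by
  obtain ⟨r, hr0, hr1, hsum⟩ := exists_hasSum_of_analyticAt hc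
  have key : HasFPowerSeriesAt (fun q => c (q ^ d)) (FormalMultilinearSeries.ofScalars ℂ
      (fun m => if d ∣ m then (taylor0 c).coeff (m / d) else 0)) 0 := by
    refine hasFPowerSeriesAt_of_hasSum hr0 fun q hq => ?_
    have hq1 : ‖q‖ < 1 := hq.trans_le hr1
    have hqd : ‖q ^ d‖ < r := by
      rw [norm_pow]
      exact lt_of_le_of_lt (pow_le_of_le_one (norm_nonneg _) hq1.le hd.ne') hq
    have h1 := hsum (q ^ d) hqd
    have hinj : Function.Injective (fun n : ℕ => d * n) := fun a b hab =>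
      Nat.eq_of_mul_eq_mul_left hd hab
    rw [← hinj.hasSum_iff]
    · convert h1 using 1
      funext n
      simp [pow_mul, Nat.mul_div_cancel_left _ hd]
    · intro m hm
      have : ¬ d ∣ m := fun ⟨k, hk⟩ => hm ⟨k, hk.symm⟩
      simp [this]
  exact ⟨key.analyticAt, taylor0_eq_of_hasFPowerSeriesAt key⟩

lemma qExpansion_eq_taylor0 (f : ℍ → ℂ) : qExpansion 1 f = taylor0 (cuspFunction 1 f) := rfl

lemma taylor0_congr {c c' : ℂ → ℂ} (h : c =ᶠ[𝓝 0] c') : taylor0 c = taylor0 c' := by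
  ext m
  rw [coeff_taylor0, coeff_taylor0, h.iteratedDeriv_eq]

lemma taylor0_mul {c c' : ℂ → ℂ} (hc : AnalyticAt ℂ c 0) (hc' : AnalyticAt ℂ c' 0) :
    taylor0 (c * c') = taylor0 c * taylor0 c' := by
  ext
  simp only [coeff_taylor0, iteratedDeriv_mul hc.contDiffAt hc'.contDiffAt, Finset.mul_sum,
    PowerSeries.coeff_mul, Finset.Nat.sum_antidiagonal_eq_sum_range_succ_mk, Nat.succ_eq_add_one]
  refine Finset.sum_congr rfl fun i hi ↦ ?_
  rw [Nat.cast_choose _ (by grind)]
  field_simp [Nat.factorial_ne_zero]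

lemma taylor0_one : taylor0 (1 : ℂ → ℂ) = 1 := by
  have := taylor0_polynomial 1
  simpa [Pi.one_def] using this

lemma taylor0_id : taylor0 (fun q : ℂ => q) = PowerSeries.X := by
  have := taylor0_polynomial Polynomial.X
  simpa using this

lemma taylor0_pow {c : ℂ → ℂ} (hc : AnalyticAt ℂ c 0) (n : ℕ) :
    taylor0 (c ^ n) = taylor0 c ^ n := by
  induction n with
  | zero => simpa using taylor0_one
  | succ n ih => rw [pow_succ, taylor0_mul (hc.pow n) hc, ih, pow_succ]

/-- The Euler product is analytic at `0`. -/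
lemma analyticAt_eulerProd : AnalyticAt ℂ (fun q : ℂ => ∏' n : ℕ, (1 - q ^ (n + 1))) 0 :=
  differentiableOn_tprod_one_sub_pow.analyticAt (Metric.ball_mem_nhds 0 one_pos)

open ModularCurve in
/-- **Bridge**: the `q`-expansion of the analytic `Δ` is the Prelude's formal `q ∏ (1 - qⁿ)²⁴`. -/
theorem qExpansion_discriminant :
    qExpansion 1 ModularForm.discriminant =
      PowerSeries.X * PowerSeries.map (Int.castRingHom ℂ) dedekindEtaUnit := by
  have h1 : cuspFunction 1 ModularForm.discriminant =ᶠ[𝓝 0]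
      ((fun q : ℂ => q) * (fun q : ℂ => ∏' n : ℕ, (1 - q ^ (n + 1))) ^ 24) := by
    filter_upwards [Metric.ball_mem_nhds (0 : ℂ) one_pos] with q hq
    rw [discriminant_cuspFunction_eqOn hq]
    simp only [Pi.mul_apply, Pi.pow_apply]
    rw [(multipliable_one_sub_pow (by simpa using hq)).tprod_pow 24]
  show taylor0 (cuspFunction 1 ModularForm.discriminant) = _
  rw [taylor0_congr h1, taylor0_mul (c := fun q : ℂ => q) analyticAt_id
      (analyticAt_eulerProd.pow 24), taylor0_id,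
    taylor0_pow analyticAt_eulerProd, taylor0_eulerProd, dedekindEtaUnit, map_pow]

open ModularCurve EisensteinSeries in
/-- **Bridge**: the `q`-expansion of the analytic `E₄` is the Prelude's formal `eisenstein4`. -/
theorem qExpansion_E4 :
    qExpansion 1 E₄ = PowerSeries.map (Int.castRingHom ℂ) eisenstein4 := by
  ext n
  rw [E_qExpansion_coeff _ ⟨2, rfl⟩, PowerSeries.coeff_map, eisenstein4, PowerSeries.coeff_mk]
  by_cases h : n = 0
  · simp [h]
  · simp only [h, if_false]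
    rw [ArithmeticFunction.sigma_apply]
    norm_num [show bernoulli 4 = -1 / 30 by decide +kernel]

end Fermat.Agent.S28.QExp
end MergeWrap_S28_QBridge

section MergeWrap_S28_QExp -- from S28/QExp.lean

set_option autoImplicit false

namespace Fermat.Agent.S28.QExp

open UpperHalfPlane ModularForm Filter Complex Function
open scoped Real Topology MatrixGroups
open Fermat.Agent.S23 (QA IsMF G0)

/-! ### The function `q` and periodic functions -/

/-- The function `q = exp(2πiτ)` on the upper half plane. -/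
noncomputable def qFun : ℍ → ℂ := fun τ => Function.Periodic.qParam 1 (τ : ℂ)

lemma qFun_ne_zero (τ : ℍ) : qFun τ ≠ 0 := Function.Periodic.qParam_ne_zero _

lemma norm_qFun_lt_one (τ : ℍ) : ‖qFun τ‖ < 1 :=
  Function.Periodic.norm_qParam_lt_one one_pos τ.im_pos

/-- `f` is invariant under `τ ↦ τ + 1`. -/
def IsPer (f : ℍ → ℂ) : Prop := Function.Periodic (f ∘ UpperHalfPlane.ofComplex) 1

lemma isPer_iff {f : ℍ → ℂ} : IsPer f ↔ ∀ τ : ℍ, f ((1 : ℝ) +ᵥ τ) = f τ := by
  constructor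
  · intro h τ
    have := h (τ : ℂ)
    simp only [comp_apply, ofComplex_apply] at this
    rw [← this]
    congr 1
    have him : 0 < ((τ : ℂ) + 1).im := by simpa using τ.im_pos
    rw [ofComplex_apply_of_im_pos him]
    ext
    simp [add_comm]
  · intro h w
    by_cases! hw : 0 < im w
    · have : 0 < im (w + 1) := by simpa using hw
      simp only [comp_apply, ofComplex_apply_of_im_pos this, ofComplex_apply_of_im_pos hw]
      rw [← h ⟨w, hw⟩]
      congr 1
      ext
      simp [add_comm]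
    · have : im (w + 1) ≤ 0 := by simpa using hw
      simp [ofComplex_apply_of_im_nonpos this, ofComplex_apply_of_im_nonpos hw]

lemma IsPer.add {f g : ℍ → ℂ} (hf : IsPer f) (hg : IsPer g) : IsPer (f + g) := by
  rw [isPer_iff] at *
  intro τ; simp [hf τ, hg τ]

lemma IsPer.mul {f g : ℍ → ℂ} (hf : IsPer f) (hg : IsPer g) : IsPer (f * g) := by
  rw [isPer_iff] at *
  intro τ; simp [hf τ, hg τ]

lemma IsPer.neg {f : ℍ → ℂ} (hf : IsPer f) : IsPer (-f) := by
  rw [isPer_iff] at *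
  intro τ; simp [hf τ]

lemma IsPer.inv {f : ℍ → ℂ} (hf : IsPer f) : IsPer f⁻¹ := by
  rw [isPer_iff] at *
  intro τ; simp [hf τ]

lemma isPer_const (c : ℂ) : IsPer (fun _ => c) := by
  rw [isPer_iff]; intro τ; rfl

lemma isPer_one : IsPer 1 := isPer_const 1

lemma IsPer.pow {f : ℍ → ℂ} (hf : IsPer f) (n : ℕ) : IsPer (f ^ n) := by
  rw [isPer_iff] at *
  intro τ; simp [hf τ]

lemma isPer_qFun : IsPer qFun := by
  rw [isPer_iff]
  intro τ
  simp only [qFun, Function.Periodic.qParam, coe_vadd, ofReal_one, div_one]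
  rw [mul_add, Complex.exp_add, mul_one, Complex.exp_two_pi_mul_I, one_mul]

lemma isPer_of_isMF {N : ℕ} {k : ℤ} {f : ℍ → ℂ} (hf : IsMF (G0 N) k f) : IsPer f := by
  obtain ⟨F, rfl⟩ := hf
  exact SlashInvariantFormClass.periodic_comp_ofComplex F (Fermat.Agent.S23.one_mem_strictPeriods_G0 N)

/-! ### Cusp functions -/

/-- for `0 < ‖q‖ < 1` the cusp function is a value of `f`. -/
lemma cuspFunction_eq_apply (f : ℍ → ℂ) {q : ℂ} (hq : ‖q‖ < 1) (hq0 : q ≠ 0) :
    ∃ τ : ℍ, qFun τ = q ∧ cuspFunction 1 f q = f τ := by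
  have him := Function.Periodic.im_invQParam_pos_of_norm_lt_one one_pos hq hq0
  refine ⟨⟨_, him⟩, Function.Periodic.qParam_right_inv one_ne_zero hq0, ?_⟩
  simp [cuspFunction, Function.Periodic.cuspFunction_eq_of_nonzero 1 _ hq0,
    ofComplex_apply_of_im_pos him]

/-- If the values of `f` are given by a function `c` of `q` near the cusp, and `c` is continuous
at `0`, then the cusp function of `f` agrees with `c` near `0`. -/
lemma cuspFunction_eventuallyEq {f : ℍ → ℂ} {c : ℂ → ℂ} {r : ℝ} (hr : 0 < r)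
    (hc : ContinuousAt c 0) (h : ∀ τ : ℍ, ‖qFun τ‖ < r → f τ = c (qFun τ)) :
    cuspFunction 1 f =ᶠ[𝓝 0] c := by
  have hpunct : ∀ q : ℂ, ‖q‖ < min r 1 → q ≠ 0 → cuspFunction 1 f q = c q := by
    intro q hq hq0
    obtain ⟨τ, hτ, hval⟩ := cuspFunction_eq_apply f (hq.trans_le (min_le_right _ _)) hq0
    rw [hval, h τ (by rw [hτ]; exact hq.trans_le (min_le_left _ _)), hτ]
  have hball : Metric.ball (0 : ℂ) (min r 1) ∈ 𝓝 (0 : ℂ) :=
    Metric.ball_mem_nhds _ (lt_min hr one_pos)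
  have hzero : cuspFunction 1 f 0 = c 0 := by
    have h1 : cuspFunction 1 f 0 = limUnder (𝓝[≠] 0) (cuspFunction 1 f) :=
      Function.Periodic.cuspFunction_zero_eq_limUnder_nhds_ne 1 _
    rw [h1]
    refine Tendsto.limUnder_eq ?_
    have h2 : Tendsto c (𝓝[≠] 0) (𝓝 (c 0)) := hc.tendsto.mono_left nhdsWithin_le_nhds
    refine h2.congr' ?_
    have : ∀ᶠ q in 𝓝[≠] (0 : ℂ), q ∈ Metric.ball (0 : ℂ) (min r 1) ∧ q ≠ 0 :=
      (eventually_nhdsWithin_of_eventually_nhds hball).and self_mem_nhdsWithin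
    filter_upwards [this] with q hq
    exact (hpunct q (by simpa using hq.1) hq.2).symm
  filter_upwards [hball] with q hq
  rcases eq_or_ne q 0 with rfl | hq0
  · exact hzero
  · exact hpunct q (by simpa using hq) hq0

/-- `QA` and the `q`-expansion from a local description of `f` as an analytic function of `q`. -/
lemma qa_of_eq {f : ℍ → ℂ} {c : ℂ → ℂ} {r : ℝ} (hr : 0 < r)
    (hc : AnalyticAt ℂ c 0) (h : ∀ τ : ℍ, ‖qFun τ‖ < r → f τ = c (qFun τ)) :
    QA f ∧ qExpansion 1 f = taylor0 c := by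
  have h1 := cuspFunction_eventuallyEq hr hc.continuousAt h
  exact ⟨hc.congr h1.symm, taylor0_congr h1⟩

lemma qa_qFun : QA qFun := (qa_of_eq one_pos analyticAt_id fun _ _ => rfl).1

lemma qExpansion_qFun : qExpansion 1 qFun = PowerSeries.X := by
  rw [(qa_of_eq (f := qFun) (c := fun q => q) one_pos analyticAt_id fun _ _ => rfl).2, taylor0_id]

lemma qa_qFun_pow (n : ℕ) : QA (qFun ^ n) := qa_qFun.pow n

lemma qExpansion_qFun_pow (n : ℕ) : qExpansion 1 (qFun ^ n) = PowerSeries.X ^ n := by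
  rw [qa_qFun.qExpansion_pow, qExpansion_qFun]


/-! ### `HasQ` -/

/-- `f` is `1`-periodic and meromorphic at `i∞`, with Laurent expansion `s` in `q`. -/
def HasQ (f : ℍ → ℂ) (s : LaurentSeries ℂ) : Prop :=
  IsPer f ∧ ∃ m : ℕ, QA (f * qFun ^ m) ∧
    HahnSeries.ofPowerSeries ℤ ℂ (qExpansion 1 (f * qFun ^ m)) = HahnSeries.single (m : ℤ) 1 * s

lemma single_mul_single_one (a b : ℤ) :
    (HahnSeries.single a (1 : ℂ) : LaurentSeries ℂ) * HahnSeries.single b 1 =
      HahnSeries.single (a + b) 1 := by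
  rw [HahnSeries.single_mul_single, one_mul]

lemma single_one_mul_cancel {m : ℤ} {s t : LaurentSeries ℂ}
    (h : (HahnSeries.single m (1 : ℂ) : LaurentSeries ℂ) * s = HahnSeries.single m 1 * t) :
    s = t := by
  have h1 : (HahnSeries.single (-m) (1 : ℂ) : LaurentSeries ℂ) * HahnSeries.single m 1 = 1 := by
    rw [single_mul_single_one, neg_add_cancel]; rfl
  calc s = (HahnSeries.single (-m) (1 : ℂ) * HahnSeries.single m 1) * s := by rw [h1, one_mul]
    _ = (HahnSeries.single (-m) (1 : ℂ) * HahnSeries.single m 1) * t := by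
        rw [mul_assoc, h, ← mul_assoc]
    _ = t := by rw [h1, one_mul]

lemma ofPowerSeries_X_pow' (n : ℕ) :
    HahnSeries.ofPowerSeries ℤ ℂ (PowerSeries.X ^ n) = HahnSeries.single (n : ℤ) 1 := by
  rw [HahnSeries.ofPowerSeries_X_pow]

/-- The witness exponent in `HasQ` can be increased. -/
lemma hasQ_shift {f : ℍ → ℂ} {s : LaurentSeries ℂ} {m : ℕ} (h1 : QA (f * qFun ^ m))
    (h2 : HahnSeries.ofPowerSeries ℤ ℂ (qExpansion 1 (f * qFun ^ m)) =
      HahnSeries.single (m : ℤ) 1 * s) (k : ℕ) :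
    QA (f * qFun ^ (m + k)) ∧
      HahnSeries.ofPowerSeries ℤ ℂ (qExpansion 1 (f * qFun ^ (m + k))) =
        HahnSeries.single ((m + k : ℕ) : ℤ) 1 * s := by
  have e : f * qFun ^ (m + k) = (f * qFun ^ m) * qFun ^ k := by rw [pow_add, mul_assoc]
  rw [e]
  refine ⟨h1.mul (qa_qFun_pow k), ?_⟩
  rw [h1.qExpansion_mul (qa_qFun_pow k), map_mul, h2, qExpansion_qFun_pow, ofPowerSeries_X_pow',
    mul_right_comm, single_mul_single_one]
  push_cast
  rfl

/-- `HasQ` with any large enough witness exponent. -/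
lemma HasQ.exists_forall_ge {f : ℍ → ℂ} {s : LaurentSeries ℂ} (h : HasQ f s) :
    ∃ m : ℕ, ∀ n : ℕ, m ≤ n → QA (f * qFun ^ n) ∧
      HahnSeries.ofPowerSeries ℤ ℂ (qExpansion 1 (f * qFun ^ n)) =
        HahnSeries.single (n : ℤ) 1 * s := by
  obtain ⟨-, m, h1, h2⟩ := h
  refine ⟨m, fun n hn => ?_⟩
  obtain ⟨k, rfl⟩ := Nat.exists_eq_add_of_le hn
  exact hasQ_shift h1 h2 k

lemma HasQ.isPer {f : ℍ → ℂ} {s : LaurentSeries ℂ} (h : HasQ f s) : IsPer f := h.1

/-- The expansion is unique. -/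
theorem HasQ.unique {f : ℍ → ℂ} {s t : LaurentSeries ℂ} (hs : HasQ f s) (ht : HasQ f t) :
    s = t := by
  obtain ⟨m, hm⟩ := hs.exists_forall_ge
  obtain ⟨m', hm'⟩ := ht.exists_forall_ge
  have h1 := (hm (max m m') (le_max_left _ _)).2
  have h2 := (hm' (max m m') (le_max_right _ _)).2
  exact single_one_mul_cancel (h1.symm.trans h2)

lemma HasQ.congr {f g : ℍ → ℂ} {s : LaurentSeries ℂ} (h : HasQ f s) (hfg : ∀ τ, f τ = g τ) :
    HasQ g s := by
  have : f = g := funext hfg
  rwa [← this]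

/-- A function with analytic cusp function. -/
lemma HasQ.of_qa {f : ℍ → ℂ} (hper : IsPer f) (hf : QA f) :
    HasQ f (HahnSeries.ofPowerSeries ℤ ℂ (qExpansion 1 f)) := by
  refine ⟨hper, 0, by simpa using hf, ?_⟩
  simp only [pow_zero, mul_one, Nat.cast_zero]
  rw [show (HahnSeries.single (0 : ℤ) (1 : ℂ) : LaurentSeries ℂ) = 1 from rfl, one_mul]

/-- Modular forms for `Γ₀(N)`. -/
lemma HasQ.of_isMF {N : ℕ} {k : ℤ} {f : ℍ → ℂ} (hf : IsMF (G0 N) k f) :
    HasQ f (HahnSeries.ofPowerSeries ℤ ℂ (qExpansion 1 f)) :=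
  HasQ.of_qa (isPer_of_isMF hf) (hf.qa (Fermat.Agent.S23.one_mem_strictPeriods_G0 N))

lemma HasQ.of_modularForm {N : ℕ} {k : ℤ} (F : ModularForm (G0 N) k) :
    HasQ F (HahnSeries.ofPowerSeries ℤ ℂ (qExpansion 1 F)) :=
  HasQ.of_isMF (IsMF.of F)

theorem HasQ.add {f g : ℍ → ℂ} {s t : LaurentSeries ℂ} (hf : HasQ f s) (hg : HasQ g t) :
    HasQ (f + g) (s + t) := by
  obtain ⟨m, hm⟩ := hf.exists_forall_ge
  obtain ⟨m', hm'⟩ := hg.exists_forall_ge
  obtain ⟨h1, h2⟩ := hm (max m m') (le_max_left _ _)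
  obtain ⟨h1', h2'⟩ := hm' (max m m') (le_max_right _ _)
  refine ⟨hf.1.add hg.1, max m m', ?_, ?_⟩
  · rw [add_mul]; exact h1.add h1'
  · rw [add_mul, h1.qExpansion_add h1', map_add, h2, h2', mul_add]

theorem HasQ.mul {f g : ℍ → ℂ} {s t : LaurentSeries ℂ} (hf : HasQ f s) (hg : HasQ g t) :
    HasQ (f * g) (s * t) := by
  obtain ⟨hp, m, h1, h2⟩ := hf
  obtain ⟨hp', m', h1', h2'⟩ := hg
  have e : f * g * qFun ^ (m + m') = (f * qFun ^ m) * (g * qFun ^ m') := by
    rw [pow_add]; ring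
  refine ⟨hp.mul hp', m + m', ?_, ?_⟩
  · rw [e]; exact h1.mul h1'
  · rw [e, h1.qExpansion_mul h1', map_mul, h2, h2']
    push_cast
    rw [← single_mul_single_one]
    ring

theorem hasQ_const (c : ℂ) : HasQ (fun _ => c) (HahnSeries.C c) := by
  have h1 : (fun _ : ℍ => c) = c • (1 : ℍ → ℂ) := by
    funext τ; simp
  have hqa : QA (c • (1 : ℍ → ℂ)) := Fermat.Agent.S23.QA.one.smul c
  have := HasQ.of_qa (h1 ▸ isPer_const c) hqa
  rw [h1]
  convert this using 1
  rw [Fermat.Agent.S23.QA.one.qExpansion_smul, UpperHalfPlane.qExpansion_one]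
  simp [HahnSeries.ofPowerSeries_C, Algebra.smul_def]

theorem hasQ_one : HasQ 1 1 := by
  have := hasQ_const 1
  rwa [map_one] at this

theorem hasQ_zero : HasQ 0 0 := by
  have := hasQ_const 0
  rwa [map_zero] at this

theorem HasQ.const_mul {f : ℍ → ℂ} {s : LaurentSeries ℂ} (c : ℂ) (hf : HasQ f s) :
    HasQ (fun τ => c * f τ) (HahnSeries.C c * s) :=
  ((hasQ_const c).mul hf).congr fun _ => rfl

theorem HasQ.smul {f : ℍ → ℂ} {s : LaurentSeries ℂ} (c : ℂ) (hf : HasQ f s) :
    HasQ (c • f) (c • s) := by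
  have := (hasQ_const c).mul hf
  rw [HahnSeries.C_mul_eq_smul] at this
  exact this.congr fun _ => rfl

theorem HasQ.neg {f : ℍ → ℂ} {s : LaurentSeries ℂ} (hf : HasQ f s) : HasQ (-f) (-s) := by
  have := hf.smul (-1)
  rw [neg_one_smul] at this
  rwa [neg_one_smul ℂ s] at this

theorem HasQ.sub {f g : ℍ → ℂ} {s t : LaurentSeries ℂ} (hf : HasQ f s) (hg : HasQ g t) :
    HasQ (f - g) (s - t) := by
  rw [sub_eq_add_neg, sub_eq_add_neg]
  exact hf.add hg.neg

theorem HasQ.pow {f : ℍ → ℂ} {s : LaurentSeries ℂ} (hf : HasQ f s) (n : ℕ) :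
    HasQ (f ^ n) (s ^ n) := by
  induction n with
  | zero => simpa using hasQ_one
  | succ n ih => rw [pow_succ, pow_succ]; exact ih.mul hf

theorem HasQ.sum {ι : Type*} (S : Finset ι) {f : ι → ℍ → ℂ} {s : ι → LaurentSeries ℂ}
    (h : ∀ i ∈ S, HasQ (f i) (s i)) : HasQ (∑ i ∈ S, f i) (∑ i ∈ S, s i) := by
  classical
  induction S using Finset.induction_on with
  | empty => simpa using hasQ_zero
  | insert a S ha ih =>
    rw [Finset.sum_insert ha, Finset.sum_insert ha]
    exact (h a (Finset.mem_insert_self a S)).add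
      (ih fun i hi => h i (Finset.mem_insert_of_mem hi))

theorem HasQ.prod {ι : Type*} (S : Finset ι) {f : ι → ℍ → ℂ} {s : ι → LaurentSeries ℂ}
    (h : ∀ i ∈ S, HasQ (f i) (s i)) : HasQ (∏ i ∈ S, f i) (∏ i ∈ S, s i) := by
  classical
  induction S using Finset.induction_on with
  | empty => simpa using hasQ_one
  | insert a S ha ih =>
    rw [Finset.prod_insert ha, Finset.prod_insert ha]
    exact (h a (Finset.mem_insert_self a S)).mul
      (ih fun i hi => h i (Finset.mem_insert_of_mem hi))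

/-- If `f` and `g` are inverse to each other then so are their expansions. -/
theorem HasQ.mul_eq_one {f g : ℍ → ℂ} {s t : LaurentSeries ℂ} (hf : HasQ f s) (hg : HasQ g t)
    (h : ∀ τ, f τ * g τ = 1) : s * t = 1 :=
  ((hf.mul hg).congr (g := 1) h).unique hasQ_one

/-- A function that vanishes identically has expansion `0`. -/
theorem HasQ.eq_zero {f : ℍ → ℂ} {s : LaurentSeries ℂ} (hf : HasQ f s) (h : ∀ τ, f τ = 0) :
    s = 0 :=
  (hf.congr (g := 0) h).unique hasQ_zero

/-- Two functions that agree have the same expansion. -/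
theorem HasQ.eq_of_eq {f g : ℍ → ℂ} {s t : LaurentSeries ℂ} (hf : HasQ f s) (hg : HasQ g t)
    (h : ∀ τ, f τ = g τ) : s = t :=
  (hf.congr h).unique hg

/-- Integer powers, given the expansion of the inverse. -/
theorem HasQ.zpow {f : ℍ → ℂ} {s : LaurentSeries ℂ} (hf : HasQ f s) (hinv : HasQ f⁻¹ s⁻¹)
    (e : ℤ) : HasQ (fun τ => f τ ^ e) (s ^ e) := by
  rcases e with n | n
  · rw [Int.ofNat_eq_natCast, zpow_natCast]
    exact (hf.pow n).congr fun τ => by simp
  · rw [zpow_negSucc, ← inv_pow]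
    refine (hinv.pow (n + 1)).congr fun τ => ?_
    simp [zpow_negSucc, inv_pow]

/-- Polynomial expressions. -/
theorem HasQ.aeval {f : ℍ → ℂ} {s : LaurentSeries ℂ} (hf : HasQ f s) (P : Polynomial ℂ) :
    HasQ (fun τ => P.eval (f τ)) (P.eval₂ HahnSeries.C s) := by
  induction P using Polynomial.induction_on' with
  | add p q hp hq =>
    rw [Polynomial.eval₂_add]
    exact (hp.add hq).congr fun τ => by simp
  | monomial n a =>
    rw [Polynomial.eval₂_monomial]
    exact ((hasQ_const a).mul (hf.pow n)).congr fun τ => by simp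


/-- From an analytic cusp function of `f · q^m`. -/
lemma HasQ.of_qa_mul {f : ℍ → ℂ} (hper : IsPer f) (m : ℕ) (hf : QA (f * qFun ^ m)) :
    HasQ f (HahnSeries.single (-(m : ℤ)) 1 *
      HahnSeries.ofPowerSeries ℤ ℂ (qExpansion 1 (f * qFun ^ m))) := by
  refine ⟨hper, m, hf, ?_⟩
  rw [← mul_assoc, single_mul_single_one, add_neg_cancel]
  rw [show (HahnSeries.single (0 : ℤ) (1 : ℂ) : LaurentSeries ℂ) = 1 from rfl, one_mul]

/-- Modular forms for any group containing the translation `τ ↦ τ + 1`. -/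
lemma HasQ.of_isMF' {Γ : Subgroup (GL (Fin 2) ℝ)} (h1 : (1 : ℝ) ∈ Γ.strictPeriods) {k : ℤ}
    {f : ℍ → ℂ} (hf : IsMF Γ k f) :
    HasQ f (HahnSeries.ofPowerSeries ℤ ℂ (qExpansion 1 f)) := by
  refine HasQ.of_qa ?_ (hf.qa h1)
  obtain ⟨F, rfl⟩ := hf
  exact SlashInvariantFormClass.periodic_comp_ofComplex F h1

/-! ### The substitution `τ ↦ d τ` -/

/-- `τ ↦ d τ` on the upper half plane. -/
noncomputable def mulUH (d : ℕ) [NeZero d] (τ : ℍ) : ℍ :=
  ⟨(d : ℂ) * τ, by
    have h1 := τ.im_pos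
    have hd : (0 : ℝ) < d := by exact_mod_cast Nat.pos_of_ne_zero (NeZero.ne d)
    simpa using mul_pos hd h1⟩

@[simp] lemma coe_mulUH (d : ℕ) [NeZero d] (τ : ℍ) : ((mulUH d τ : ℍ) : ℂ) = (d : ℂ) * τ := rfl

lemma qFun_mulUH (d : ℕ) [NeZero d] (τ : ℍ) : qFun (mulUH d τ) = qFun τ ^ d := by
  simp only [qFun, Function.Periodic.qParam, coe_mulUH, ofReal_one, div_one]
  rw [← Complex.exp_nat_mul]
  congr 1
  ring

lemma IsPer.natCast_vadd {f : ℍ → ℂ} (hf : IsPer f) (n : ℕ) (τ : ℍ) :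
    f ((n : ℝ) +ᵥ τ) = f τ := by
  rw [isPer_iff] at hf
  induction n with
  | zero => congr 1; ext; simp
  | succ n ih =>
    rw [← ih, ← hf ((n : ℝ) +ᵥ τ)]
    congr 1
    ext
    simp
    ring

lemma IsPer.comp_mulUH {f : ℍ → ℂ} (hf : IsPer f) (d : ℕ) [NeZero d] :
    IsPer (fun τ => f (mulUH d τ)) := by
  rw [isPer_iff]
  intro τ
  rw [← hf.natCast_vadd d (mulUH d τ)]
  congr 1
  ext
  simp
  ring

open ModularCurve in
lemma ofPowerSeries_psExpand (d : ℕ) [NeZero d] (p : PowerSeries ℂ) :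
    HahnSeries.ofPowerSeries ℤ ℂ (psExpand d p) = qExpand ℂ d (HahnSeries.ofPowerSeries ℤ ℂ p) := by
  ext k
  by_cases hk : (d : ℤ) ∣ k
  · obtain ⟨j, rfl⟩ := hk
    rw [qExpand_coeff_mul]
    rcases le_or_gt 0 j with hj | hj
    · lift j to ℕ using hj
      rw [show (d : ℤ) * (j : ℤ) = ((d * j : ℕ) : ℤ) by push_cast; rfl,
        HahnSeries.ofPowerSeries_apply_coeff, HahnSeries.ofPowerSeries_apply_coeff,
        coeff_psExpand, if_pos (dvd_mul_right d j),
        Nat.mul_div_cancel_left _ (Nat.pos_of_ne_zero (NeZero.ne d))]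
    · have hd : (0 : ℤ) < d := by exact_mod_cast Nat.pos_of_ne_zero (NeZero.ne d)
      rw [ofPowerSeries_coeff_of_neg _ (mul_neg_of_pos_of_neg hd hj),
        ofPowerSeries_coeff_of_neg _ hj]
  · rw [qExpand_coeff_of_not_dvd _ _ hk]
    rcases le_or_gt 0 k with hk0 | hk0
    · lift k to ℕ using hk0
      rw [HahnSeries.ofPowerSeries_apply_coeff, coeff_psExpand, if_neg]
      exact fun h => hk (by exact_mod_cast h)
    · exact ofPowerSeries_coeff_of_neg _ hk0

open ModularCurve in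
/-- The expansion of `τ ↦ f (d τ)` is `qExpand d` of the expansion of `f`. -/
theorem HasQ.comp_mulUH {f : ℍ → ℂ} {s : LaurentSeries ℂ} (hf : HasQ f s) (d : ℕ) [NeZero d] :
    HasQ (fun τ => f (mulUH d τ)) (qExpand ℂ d s) := by
  obtain ⟨hper, m, h1, h2⟩ := hf
  have hperG : IsPer (f * qFun ^ m) := hper.mul (isPer_qFun.pow m)
  have hd : 0 < d := Nat.pos_of_ne_zero (NeZero.ne d)
  obtain ⟨han, htay⟩ := taylor0_comp_pow (c := cuspFunction 1 (f * qFun ^ m)) h1 hd
  have e : (fun τ => f (mulUH d τ)) * qFun ^ (d * m) = fun τ => (f * qFun ^ m) (mulUH d τ) := by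
    funext τ
    simp only [Pi.mul_apply, Pi.pow_apply, qFun_mulUH, pow_mul]
  have key := qa_of_eq (f := fun τ => (f * qFun ^ m) (mulUH d τ)) one_pos han (fun τ _ => by
    rw [← qFun_mulUH]
    exact (eq_cuspFunction (mulUH d τ) one_ne_zero hperG).symm)
  refine ⟨hper.comp_mulUH d, d * m, e ▸ key.1, ?_⟩
  rw [e, key.2, htay, ofPowerSeries_psExpand, ← qExpansion_eq_taylor0, h2, map_mul,
    qExpand_single]
  push_cast
  rfl


/-! ### Bridges to the Prelude's formal series -/

section Bridges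

open ModularCurve EisensteinSeries

/-- The formal `Δ = q ∏ (1 - qⁿ)²⁴` with complex coefficients. -/
noncomputable def deltaC : LaurentSeries ℂ :=
  HahnSeries.single (1 : ℤ) 1 *
    HahnSeries.ofPowerSeries ℤ ℂ (PowerSeries.map (Int.castRingHom ℂ) dedekindEtaUnit)

/-- The formal `Δ⁻¹` with complex coefficients. -/
noncomputable def deltaInvC : LaurentSeries ℂ :=
  HahnSeries.single (-1 : ℤ) 1 *
    HahnSeries.ofPowerSeries ℤ ℂ (PowerSeries.map (Int.castRingHom ℂ) dedekindEtaUnitInv)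

/-- The formal `E₄` with complex coefficients. -/
noncomputable def e4C : LaurentSeries ℂ :=
  HahnSeries.ofPowerSeries ℤ ℂ (PowerSeries.map (Int.castRingHom ℂ) eisenstein4)

lemma deltaC_mul_deltaInvC : deltaC * deltaInvC = 1 := by
  unfold deltaC deltaInvC
  rw [mul_mul_mul_comm, single_mul_single_one, ← map_mul, ← map_mul, dedekindEtaUnit_mul_inv,
    (PowerSeries.map (Int.castRingHom ℂ)).map_one, (HahnSeries.ofPowerSeries ℤ ℂ).map_one,
    mul_one]
  rfl

lemma deltaInvC_eq_inv : deltaInvC = deltaC⁻¹ :=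
  eq_inv_of_mul_eq_one_right deltaC_mul_deltaInvC

lemma deltaC_ne_zero : deltaC ≠ 0 := left_ne_zero_of_mul_eq_one deltaC_mul_deltaInvC

lemma e4C_pow_mul_deltaInvC : e4C ^ 3 * deltaInvC = jqModC ℂ := by
  unfold e4C deltaInvC jqModC jNum
  rw [map_mul, map_mul, map_pow, map_pow]
  ring

theorem hasQ_E4 : HasQ E₄ e4C := by
  have := HasQ.of_isMF' (Γ := 𝒮ℒ) (by simp) (IsMF.of E₄)
  rwa [qExpansion_E4] at this

theorem hasQ_discriminant : HasQ ModularForm.discriminant deltaC := by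
  have := HasQ.of_isMF' (Γ := 𝒮ℒ) (by simp)
    (IsMF.of (ModularFormClass.modularForm CuspForm.discriminant))
  have e : (⇑(ModularFormClass.modularForm CuspForm.discriminant) : ℍ → ℂ) =
      ModularForm.discriminant := rfl
  rw [e, qExpansion_discriminant, map_mul, HahnSeries.ofPowerSeries_X] at this
  exact this

lemma discriminant_eq_qFun_mul (τ : ℍ) :
    ModularForm.discriminant τ = qFun τ * (∏' n : ℕ, (1 - qFun τ ^ (n + 1))) ^ 24 := by
  rw [discriminant_eq_q_prod, ← (multipliable_one_sub_pow (norm_qFun_lt_one τ)).tprod_pow 24]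
  simp only [qFun, eta_q_eq_pow]

theorem hasQ_inv_discriminant : HasQ (ModularForm.discriminant)⁻¹ deltaInvC := by
  have hper : IsPer (ModularForm.discriminant)⁻¹ := hasQ_discriminant.isPer.inv
  have hE0 : (fun q : ℂ => (∏' n : ℕ, (1 - q ^ (n + 1))) ^ 24) 0 ≠ 0 := by
    simp
  have han : AnalyticAt ℂ (fun q : ℂ => ((∏' n : ℕ, (1 - q ^ (n + 1))) ^ 24)⁻¹) 0 :=
    (analyticAt_eulerProd.pow 24).inv hE0
  have hqa := (qa_of_eq (f := (ModularForm.discriminant)⁻¹ * qFun ^ 1) one_pos han (fun τ _ => by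
    simp only [Pi.mul_apply, Pi.inv_apply, pow_one]
    rw [discriminant_eq_qFun_mul, mul_inv, mul_right_comm, inv_mul_cancel₀ (qFun_ne_zero τ),
      one_mul])).1
  have h1 := HasQ.of_qa_mul hper 1 hqa
  have h2 := hasQ_discriminant.mul_eq_one h1 (fun τ => by
    simp only [Pi.inv_apply]
    exact mul_inv_cancel₀ (discriminant_ne_zero τ))
  rw [deltaInvC_eq_inv, ← eq_inv_of_mul_eq_one_right h2]
  exact h1

/-- The analytic `j`-function. -/
noncomputable def jFun : ℍ → ℂ := fun τ => E₄ τ ^ 3 / ModularForm.discriminant τ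

/-- **Bridge**: the `q`-expansion of `j = E₄³ / Δ` is the Prelude's `jq` (over `ℂ`). -/
theorem hasQ_jFun : HasQ jFun (jqModC ℂ) := by
  rw [← e4C_pow_mul_deltaInvC]
  exact ((hasQ_E4.pow 3).mul hasQ_inv_discriminant).congr fun τ => by
    simp [jFun, div_eq_mul_inv]

/-- `j(dτ)`. -/
theorem hasQ_jFun_comp (d : ℕ) [NeZero d] :
    HasQ (fun τ => jFun (mulUH d τ)) (jqNModC ℂ d) :=
  hasQ_jFun.comp_mulUH d

/-- `Δ(dτ)` and its inverse. -/
theorem hasQ_discriminant_comp (d : ℕ) [NeZero d] :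
    HasQ (fun τ => ModularForm.discriminant (mulUH d τ)) (qExpand ℂ d deltaC) :=
  hasQ_discriminant.comp_mulUH d

theorem hasQ_inv_discriminant_comp (d : ℕ) [NeZero d] :
    HasQ (fun τ => ModularForm.discriminant (mulUH d τ))⁻¹ (qExpand ℂ d deltaC)⁻¹ := by
  have := hasQ_inv_discriminant.comp_mulUH d
  rw [deltaInvC_eq_inv, map_inv₀] at this
  exact this.congr fun τ => by simp

/-- Integer powers of `Δ(dτ)`. -/
theorem hasQ_discriminant_comp_zpow (d : ℕ) [NeZero d] (e : ℤ) :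
    HasQ (fun τ => ModularForm.discriminant (mulUH d τ) ^ e) (qExpand ℂ d deltaC ^ e) :=
  (hasQ_discriminant_comp d).zpow (hasQ_inv_discriminant_comp d) e

end Bridges

end Fermat.Agent.S28.QExp
end MergeWrap_S28_QExp
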